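import Mathlib
import Fermat.Agent.Lib.ValuationIntegral
import Fermat.Agent.S05.Inertia
import Fermat.Agent.Lib.InertiaLift
import Fermat.Agent.Lib.FrobeniusExists
import Fermat.Agent.PT.G.KumLocal
import Fermat.Agent.PT.G.KumUnram

/-!
# CAR: the inertia field `K0 = ℚ̄^{I_A}` and its discrete valuation ring `W = A ∩ K0`

`A` a valuation subring of `ℚ̄` lying over a prime `q`, `I_A = A.inertiaSubgroupIn ℚ` its inertia
group.  The local layer of CAR (regular two-dimensional local rings on the model of `X₀(q²M')`)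
needs a NOETHERIAN base ring; `A` itself is a rank-one non-noetherian valuation ring.  The base is

* `inertiaField A : IntermediateField ℚ ℚ̄`, the fixed field of `I_A` ("`K0`");
* `W A : ValuationSubring (inertiaField A)`, the valuation ring `A ∩ K0`.

Main results (`hq : q.Prime`, `hA : A.LiesOverPrime q`):

* `mem_inertia_of_fixes_roots` : an element of the decomposition group fixing all roots of unity
  of order prime to `q` lies in `I_A`;
* `apply_eq_of_mem_inertia_of_pow_eq_one` : conversely `I_A` fixes the roots of unity of order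
  prime to `q`, so they lie in `K0` (`mem_inertiaField_of_pow_eq_one`);
* `valuation_le_of_mem_inertiaField` : **`K0` is unramified**: `x ∈ K0`, `v(x) < 1 ⟹ v(x) ≤ v(q)`;
* `exists_zpow_valuation_eq_of_mem_inertiaField` : the value group of `K0` at `A` is `v(q)^ℤ`;
* `isDiscreteValuationRing_W` : `W A` is a discrete valuation ring, `irreducible_natCast_W`,
  `maximalIdeal_W` : with uniformiser `q`;
* `exists_mem_inertiaField_valuation_sub_lt_one` : `K0` has the residue field of `A`
  (every element of `A` is congruent to `0` or to a root of unity of order prime to `q`).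

Inputs from PT (on main): density of `K` in the fixed field of `D_A ⊓ Gal(ℚ̄/K)`
(`PT.Kummer.exists_mem_sub_div_mem`) and `PT.Kummer.exists_zpow_valuation_eq` (trivial inertia on a
finite Galois extension gives the value group `v(q)^ℤ`).
-/

set_option autoImplicit false
set_option linter.style.haveILetI false

namespace Fermat.Agent.CAR.K0

open Polynomial

local notation "Qb" => AlgebraicClosure ℚ
local notation "GQ" => (AlgebraicClosure ℚ ≃ₐ[ℚ] AlgebraicClosure ℚ)

/-! ### Frobenius elements and roots of unity modulo the maximal ideal -/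

/-- A Frobenius element at `A` acts as `x ↦ x ^ q` modulo the maximal ideal of `A`. -/
theorem valuation_frob_sub_pow_lt_one (A : ValuationSubring Qb) (σ : GQ) (q : ℕ)
    (hσ : A.IsFrobeniusAt σ q) {x : Qb} (hx : x ∈ A) : A.valuation (σ x - x ^ q) < 1 := by
  have hdec := hσ.mem_decompositionSubgroup
  have h := hσ.smul_residue_eq (IsLocalRing.residue A ⟨x, hx⟩)
  set g : A.decompositionSubgroup ℚ := ⟨σ, hdec⟩ with hg
  have hmem : σ x ∈ A := ((g • (⟨x, hx⟩ : A) : A)).2
  rw [← IsLocalRing.ResidueField.residue_smul, ← map_pow] at h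
  have h3 : (g • (⟨x, hx⟩ : A) : A) - (⟨x, hx⟩ : A) ^ q ∈ IsLocalRing.maximalIdeal A := by
    rw [← Ideal.Quotient.eq]
    exact h
  rw [← ValuationSubring.mem_nonunits_iff, ValuationSubring.mem_nonunits_iff_exists_mem_maximalIdeal]
  exact ⟨A.sub_mem hmem (pow_mem hx q), h3⟩

/-- Powers of a Frobenius element act as `x ↦ x ^ (q ^ k)` modulo the maximal ideal. -/
theorem valuation_frob_pow_sub_pow_lt_one (A : ValuationSubring Qb) (σ : GQ) (q : ℕ)
    (hσ : A.IsFrobeniusAt σ q) (k : ℕ) {x : Qb} (hx : x ∈ A) :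
    A.valuation ((σ ^ k) x - x ^ (q ^ k)) < 1 := by
  induction k with
  | zero =>
    have : (σ ^ 0) x - x ^ (q ^ 0) = 0 := by
      rw [pow_zero, pow_zero, pow_one]
      exact sub_self x
    rw [this, map_zero]
    exact zero_lt_one
  | succ k ih =>
    have e : (σ ^ (k + 1)) x - x ^ (q ^ (k + 1)) =
        σ ((σ ^ k) x - x ^ (q ^ k)) + (σ (x ^ (q ^ k)) - (x ^ (q ^ k)) ^ q) := by
      rw [pow_succ' σ k, pow_succ q k, pow_mul, map_sub]
      show σ ((σ ^ k) x) - _ = _
      ring
    rw [e]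
    refine lt_of_le_of_lt (A.valuation.map_add _ _) (max_lt ?_ ?_)
    · rw [Fermat.Agent.PT.G.valuation_apply_eq_of_mem_decomp hσ.mem_decompositionSubgroup]
      exact ih
    · exact valuation_frob_sub_pow_lt_one A σ q hσ (pow_mem hx _)

/-- A product of elements of valuation `≤ 1` has valuation `< 1` only if a factor has. -/
theorem exists_valuation_lt_one_of_prod (A : ValuationSubring Qb) (m : Multiset Qb)
    (hm : ∀ a ∈ m, A.valuation a ≤ 1) (h : A.valuation m.prod < 1) :
    ∃ a ∈ m, A.valuation a < 1 := by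
  induction m using Multiset.induction_on with
  | empty =>
    rw [Multiset.prod_zero, map_one] at h
    exact absurd h (lt_irrefl _)
  | cons a m ih =>
    by_cases ha : A.valuation a < 1
    · exact ⟨a, Multiset.mem_cons_self a m, ha⟩
    · have ha1 : A.valuation a = 1 :=
        le_antisymm (hm a (Multiset.mem_cons_self a m)) (not_lt.mp ha)
      rw [Multiset.prod_cons, map_mul, ha1, one_mul] at h
      obtain ⟨b, hb, hb1⟩ := ih (fun b hb => hm b (Multiset.mem_cons_of_mem hb)) h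
      exact ⟨b, Multiset.mem_cons_of_mem hb, hb1⟩

/-- If `b ^ N ≡ 1` modulo the maximal ideal of `A` (`N > 0`), then `b` is congruent to an
`N`-th root of unity. -/
theorem exists_root_of_unity_of_pow_sub_one (A : ValuationSubring Qb) {b : Qb} (hb : b ∈ A)
    {N : ℕ} (hN : 0 < N) (h : A.valuation (b ^ N - 1) < 1) :
    ∃ ζ : Qb, ζ ^ N = 1 ∧ A.valuation (b - ζ) < 1 := by
  have hmonic : (X ^ N - 1 : Qb[X]).Monic := monic_X_pow_sub_C (1 : Qb) hN.ne'
  have hsplit : (X ^ N - 1 : Qb[X]).Splits := IsAlgClosed.splits _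
  have heval := hsplit.eval_eq_prod_roots_of_monic hmonic b
  rw [eval_sub, eval_pow, eval_X, eval_one] at heval
  rw [heval] at h
  have hroot : ∀ a ∈ (X ^ N - 1 : Qb[X]).roots, a ^ N = 1 := by
    intro a ha
    have := (mem_roots hmonic.ne_zero).mp ha
    rw [IsRoot.def, eval_sub, eval_pow, eval_X, eval_one, sub_eq_zero] at this
    exact this
  have hle : ∀ c ∈ ((X ^ N - 1 : Qb[X]).roots.map fun a => b - a), A.valuation c ≤ 1 := by
    intro c hc
    obtain ⟨a, ha, rfl⟩ := Multiset.mem_map.mp hc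
    rw [A.valuation_le_one_iff]
    refine A.sub_mem hb (Fermat.Agent.Lib.ValuationIntegral.mem_of_isIntegral_int A ?_)
    exact ⟨X ^ N - 1, monic_X_pow_sub_C (1 : ℤ) hN.ne', by
      rw [eval₂_sub, eval₂_pow, eval₂_X, eval₂_one, hroot a ha, sub_self]⟩
  obtain ⟨c, hc, hc1⟩ := exists_valuation_lt_one_of_prod A _ hle h
  obtain ⟨a, ha, rfl⟩ := Multiset.mem_map.mp hc
  exact ⟨a, hroot a ha, hc1⟩

/-- **Teichmüller representatives.**  Every algebraic integer is congruent modulo the maximal ideal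
of `A` to `0` or to a root of unity of order prime to `q`. -/
theorem exists_root_of_unity_of_isIntegral {q : ℕ} (hq : q.Prime) (A : ValuationSubring Qb)
    (hA : A.LiesOverPrime q) {b : Qb} (hb : IsIntegral ℤ b) :
    A.valuation b < 1 ∨
      ∃ (ζ : Qb) (N : ℕ), 0 < N ∧ ¬ q ∣ N ∧ ζ ^ N = 1 ∧ A.valuation (b - ζ) < 1 := by
  have hbA : b ∈ A := Fermat.Agent.Lib.ValuationIntegral.mem_of_isIntegral_int A hb
  by_cases hb1 : A.valuation b < 1
  · exact Or.inl hb1
  right
  have hbv : A.valuation b = 1 :=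
    le_antisymm ((A.valuation_le_one_iff b).mpr hbA) (not_lt.mp hb1)
  obtain ⟨φ, hφ⟩ := Fermat.Agent.Lib.FrobeniusExists.exists_isFrobeniusAt_of_liesOverPrime hq A hA
  obtain ⟨k, hk, hkb⟩ := Fermat.Agent.PT.G.exists_pow_apply_eq φ b
  have h1 := valuation_frob_pow_sub_pow_lt_one A φ q hφ k hbA
  rw [hkb] at h1
  have hqk : 1 < q ^ k := Nat.one_lt_pow hk.ne' hq.one_lt
  set N : ℕ := q ^ k - 1 with hNdef
  have hN : 0 < N := by omega
  have hqN : ¬ q ∣ N := by
    intro hdvd
    have h2 : q ∣ q ^ k := dvd_pow_self q hk.ne'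
    have h3 : q ∣ q ^ k - N := Nat.dvd_sub h2 hdvd
    have h4 : q ^ k - N = 1 := by omega
    rw [h4] at h3
    exact hq.one_lt.ne' (Nat.dvd_one.mp h3)
  have e : b - b ^ (q ^ k) = -(b * (b ^ N - 1)) := by
    have : q ^ k = N + 1 := by omega
    rw [this, pow_succ]
    ring
  rw [e, Valuation.map_neg, map_mul, hbv, one_mul] at h1
  obtain ⟨ζ, hζ, hζ1⟩ := exists_root_of_unity_of_pow_sub_one A hbA hN h1
  exact ⟨ζ, N, hN, hqN, hζ, hζ1⟩

/-! ### Inertia and roots of unity of order prime to `q` -/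

/-- An element of the decomposition group of `A` fixing all roots of unity of order prime to `q`
lies in the inertia group of `A`. -/
theorem mem_inertia_of_fixes_roots {q : ℕ} (hq : q.Prime) (A : ValuationSubring Qb)
    (hA : A.LiesOverPrime q) (g : GQ) (hg : g ∈ A.decompositionSubgroup ℚ)
    (hfix : ∀ (ζ : Qb) (N : ℕ), 0 < N → ¬ q ∣ N → ζ ^ N = 1 → g ζ = ζ) :
    g ∈ A.inertiaSubgroupIn ℚ := by
  refine Fermat.Agent.Lib.InertiaLift.mem_inertiaSubgroupIn_of_integral hq A hA g fun b hb => ?_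
  rcases exists_root_of_unity_of_isIntegral hq A hA hb with h | ⟨ζ, N, hN, hqN, hζ, h⟩
  · refine lt_of_le_of_lt (A.valuation.map_sub _ _) (max_lt ?_ h)
    rw [Fermat.Agent.PT.G.valuation_apply_eq_of_mem_decomp hg]
    exact h
  · have e : g b - b = g (b - ζ) - (b - ζ) := by
      rw [map_sub, hfix ζ N hN hqN hζ]
      ring
    rw [e]
    refine lt_of_le_of_lt (A.valuation.map_sub _ _) (max_lt ?_ h)
    rw [Fermat.Agent.PT.G.valuation_apply_eq_of_mem_decomp hg]
    exact h

/-- A root of unity of order prime to `q` which is congruent to `1` modulo the maximal ideal of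
`A` is `1`. -/
theorem eq_one_of_pow_eq_one_of_valuation_sub_one {q : ℕ} (hq : q.Prime) (A : ValuationSubring Qb)
    (hA : A.LiesOverPrime q) {ξ : Qb} {N : ℕ} (hqN : ¬ q ∣ N) (hξ : ξ ^ N = 1)
    (h : A.valuation (ξ - 1) < 1) : ξ = 1 := by
  by_contra hne
  have hsum : ∑ i ∈ Finset.range N, ξ ^ i = 0 := by
    have h1 : (ξ - 1) * ∑ i ∈ Finset.range N, ξ ^ i = 0 := by
      rw [mul_geom_sum, hξ, sub_self]
    exact (mul_eq_zero.mp h1).resolve_left (sub_ne_zero.mpr hne)
  have hξA : A.valuation ξ ≤ 1 := by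
    have h1 : ξ = (ξ - 1) + 1 := by ring
    rw [h1]
    exact le_trans (A.valuation.map_add _ _) (max_le h.le (by rw [map_one]))
  have hpow : ∀ i : ℕ, A.valuation (ξ ^ i - 1) < 1 := by
    intro i
    have h1 : ξ ^ i - 1 = (ξ - 1) * ∑ j ∈ Finset.range i, ξ ^ j := (mul_geom_sum ξ i).symm
    rw [h1, map_mul]
    have h2 : A.valuation (∑ j ∈ Finset.range i, ξ ^ j) ≤ 1 := by
      refine A.valuation.map_sum_le fun j _ => ?_
      rw [map_pow]
      exact pow_le_one₀ zero_le hξA
    calc A.valuation (ξ - 1) * A.valuation (∑ j ∈ Finset.range i, ξ ^ j)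
        ≤ A.valuation (ξ - 1) * 1 := mul_le_mul' le_rfl h2
      _ < 1 := by rw [mul_one]; exact h
  have hN : A.valuation ((N : ℤ) : Qb) < 1 := by
    have h1 : ((N : ℤ) : Qb) = -∑ i ∈ Finset.range N, (ξ ^ i - 1) := by
      rw [Finset.sum_sub_distrib, hsum]
      simp
    rw [h1, Valuation.map_neg]
    exact A.valuation.map_sum_lt one_ne_zero fun i _ => hpow i
  exact Fermat.Agent.Lib.ValuationIntegral.intCast_notMem_nonunits A hq hA
    (fun hdvd => hqN (Int.natCast_dvd_natCast.mp hdvd)) (A.mem_nonunits_iff.mpr hN)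

/-- The inertia group of `A` fixes the roots of unity of order prime to `q`. -/
theorem apply_eq_of_mem_inertia_of_pow_eq_one {q : ℕ} (hq : q.Prime) (A : ValuationSubring Qb)
    (hA : A.LiesOverPrime q) {σ : GQ} (hσ : σ ∈ A.inertiaSubgroupIn ℚ) {ζ : Qb} {N : ℕ}
    (hN : 0 < N) (hqN : ¬ q ∣ N) (hζ : ζ ^ N = 1) : σ ζ = ζ := by
  have hζ0 : ζ ≠ 0 := by
    rintro rfl
    rw [zero_pow hN.ne'] at hζ
    exact zero_ne_one hζ
  have hζint : IsIntegral ℤ ζ := ⟨X ^ N - 1, monic_X_pow_sub_C (1 : ℤ) hN.ne', by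
    rw [eval₂_sub, eval₂_pow, eval₂_X, eval₂_one, hζ, sub_self]⟩
  have hζA : A.valuation ζ ≤ 1 :=
    (A.valuation_le_one_iff ζ).mpr (Fermat.Agent.Lib.ValuationIntegral.mem_of_isIntegral_int A hζint)
  have hζ1 : A.valuation ζ = 1 := by
    refine le_antisymm hζA ?_
    by_contra hlt
    rw [not_le] at hlt
    have h1 : A.valuation (ζ ^ N) < 1 := by
      rw [map_pow]
      exact pow_lt_one₀ zero_le hlt hN.ne'
    rw [hζ, map_one] at h1
    exact lt_irrefl _ h1
  have h := Fermat.Agent.S05.inertia_spec A σ hσ ζ hζA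
  have hξ : (σ ζ / ζ) ^ N = 1 := by
    rw [div_pow, ← map_pow, hζ, map_one, div_one]
  have h2 : A.valuation (σ ζ / ζ - 1) < 1 := by
    have e : σ ζ / ζ - 1 = (σ ζ - ζ) / ζ := by field_simp
    rw [e, map_div₀, hζ1, div_one]
    exact h
  have h3 := eq_one_of_pow_eq_one_of_valuation_sub_one hq A hA hqN hξ h2
  rwa [div_eq_one_iff_eq hζ0] at h3

/-! ### The cyclotomic fields of conductor prime to `q` -/

/-- `ℚ(μ_N)` inside `ℚ̄`. -/
noncomputable def cyc (N : ℕ) : IntermediateField ℚ Qb :=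
  IntermediateField.adjoin ℚ ((X ^ N - 1 : ℚ[X]).rootSet Qb)

theorem mem_rootSet_X_pow_sub_one {N : ℕ} (hN : 0 < N) (ζ : Qb) :
    ζ ∈ (X ^ N - 1 : ℚ[X]).rootSet Qb ↔ ζ ^ N = 1 := by
  have hne : (X ^ N - 1 : ℚ[X]) ≠ 0 := by
    have h := (monic_X_pow_sub_C (1 : ℚ) hN.ne').ne_zero
    rwa [map_one] at h
  rw [mem_rootSet_of_ne hne, map_sub, map_pow, aeval_X, map_one, sub_eq_zero]

theorem mem_cyc_of_pow_eq_one {N : ℕ} (hN : 0 < N) {ζ : Qb} (hζ : ζ ^ N = 1) : ζ ∈ cyc N :=
  IntermediateField.subset_adjoin ℚ _ ((mem_rootSet_X_pow_sub_one hN ζ).mpr hζ)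

theorem isSplittingField_cyc (N : ℕ) : (X ^ N - 1 : ℚ[X]).IsSplittingField ℚ (cyc N) :=
  IntermediateField.adjoin_rootSet_isSplittingField (IsAlgClosed.splits _)

theorem finiteDimensional_cyc (N : ℕ) : FiniteDimensional ℚ (cyc N) :=
  haveI := isSplittingField_cyc N
  IsSplittingField.finiteDimensional (cyc N) (X ^ N - 1 : ℚ[X])

theorem normal_cyc (N : ℕ) : Normal ℚ (cyc N) :=
  haveI := isSplittingField_cyc N
  Normal.of_isSplittingField (X ^ N - 1 : ℚ[X])

theorem cyc_le_cyc_mul {N M : ℕ} (hN : 0 < N) (hM : 0 < M) : cyc N ≤ cyc (N * M) := by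
  refine IntermediateField.adjoin_le_iff.mpr fun ζ hζ => ?_
  rw [mem_rootSet_X_pow_sub_one hN] at hζ
  exact mem_cyc_of_pow_eq_one (Nat.mul_pos hN hM) (by rw [pow_mul, hζ, one_pow])

/-- The inertia group of `A` acts trivially on `ℚ(μ_N)` for `N` prime to `q`. -/
theorem inertia_le_fixingSubgroup_cyc {q : ℕ} (hq : q.Prime) (A : ValuationSubring Qb)
    (hA : A.LiesOverPrime q) {N : ℕ} (hN : 0 < N) (hqN : ¬ q ∣ N) :
    A.inertiaSubgroupIn ℚ ≤ (cyc N).fixingSubgroup := by
  intro σ hσ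
  rw [IntermediateField.mem_fixingSubgroup_iff]
  have hle : cyc N ≤ IntermediateField.fixedField (Subgroup.zpowers σ) := by
    refine IntermediateField.adjoin_le_iff.mpr fun ζ hζ => ?_
    rw [mem_rootSet_X_pow_sub_one hN] at hζ
    show ζ ∈ IntermediateField.fixedField (Subgroup.zpowers σ)
    rw [IntermediateField.mem_fixedField_iff]
    intro f hf
    obtain ⟨k, rfl⟩ := Subgroup.mem_zpowers_iff.mp hf
    have h1 : σ ζ = ζ := apply_eq_of_mem_inertia_of_pow_eq_one hq A hA hσ hN hqN hζ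
    have h2 : σ ∈ MulAction.stabilizer GQ ζ := MulAction.mem_stabilizer_iff.mpr h1
    exact MulAction.mem_stabilizer_iff.mp (zpow_mem h2 k)
  intro x hx
  have h := hle hx
  rw [IntermediateField.mem_fixedField_iff] at h
  exact h σ (Subgroup.mem_zpowers σ)

/-- `ℚ(μ_{q'})`: the field generated by all roots of unity of order prime to `q`. -/
noncomputable def cycInf (q : ℕ) : IntermediateField ℚ Qb :=
  IntermediateField.adjoin ℚ {ζ : Qb | ∃ N : ℕ, 0 < N ∧ ¬ q ∣ N ∧ ζ ^ N = 1}

theorem exists_mem_cyc_of_mem_cycInf {q : ℕ} (hq : q.Prime) {y : Qb} (hy : y ∈ cycInf q) :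
    ∃ N : ℕ, 0 < N ∧ ¬ q ∣ N ∧ y ∈ cyc N := by
  have hmul : ∀ {N M : ℕ}, ¬ q ∣ N → ¬ q ∣ M → ¬ q ∣ N * M := fun hN hM h =>
    (hq.dvd_mul.mp h).elim hN hM
  unfold cycInf at hy
  induction hy using IntermediateField.adjoin_induction with
  | mem x hx =>
    obtain ⟨N, hN, hqN, hx⟩ := hx
    exact ⟨N, hN, hqN, mem_cyc_of_pow_eq_one hN hx⟩
  | algebraMap r =>
    exact ⟨1, one_pos, fun h => hq.one_lt.ne' (Nat.dvd_one.mp h), (cyc 1).algebraMap_mem r⟩
  | add x y _ _ ihx ihy =>
    obtain ⟨N, hN, hqN, hxN⟩ := ihx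
    obtain ⟨M, hM, hqM, hyM⟩ := ihy
    refine ⟨N * M, Nat.mul_pos hN hM, hmul hqN hqM, add_mem (cyc_le_cyc_mul hN hM hxN) ?_⟩
    rw [mul_comm]
    exact cyc_le_cyc_mul hM hN hyM
  | inv x _ ih =>
    obtain ⟨N, hN, hqN, hxN⟩ := ih
    exact ⟨N, hN, hqN, inv_mem hxN⟩
  | mul x y _ _ ihx ihy =>
    obtain ⟨N, hN, hqN, hxN⟩ := ihx
    obtain ⟨M, hM, hqM, hyM⟩ := ihy
    refine ⟨N * M, Nat.mul_pos hN hM, hmul hqN hqM, mul_mem (cyc_le_cyc_mul hN hM hxN) ?_⟩
    rw [mul_comm]
    exact cyc_le_cyc_mul hM hN hyM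

/-- `D_A ⊓ Gal(ℚ̄/ℚ(μ_{q'})) ≤ I_A`. -/
theorem decomp_inf_fixingSubgroup_cycInf_le {q : ℕ} (hq : q.Prime) (A : ValuationSubring Qb)
    (hA : A.LiesOverPrime q) :
    A.decompositionSubgroup ℚ ⊓ (cycInf q).fixingSubgroup ≤ A.inertiaSubgroupIn ℚ := by
  intro g hg
  obtain ⟨hgD, hgC⟩ := Subgroup.mem_inf.mp hg
  refine mem_inertia_of_fixes_roots hq A hA g hgD fun ζ N hN hqN hζ => ?_
  exact (IntermediateField.mem_fixingSubgroup_iff _ g).mp hgC ζ
    (IntermediateField.subset_adjoin ℚ _ ⟨N, hN, hqN, hζ⟩)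

/-- The value group of `ℚ(μ_{q'})` at `A` is `v(q)^ℤ`. -/
theorem exists_zpow_valuation_eq_of_mem_cycInf {q : ℕ} (hq : q.Prime) (A : ValuationSubring Qb)
    (hA : A.LiesOverPrime q) {y : Qb} (hy : y ∈ cycInf q) (hy0 : y ≠ 0) :
    ∃ n : ℤ, A.valuation y = A.valuation ((q : Qb) ^ n) := by
  obtain ⟨N, hN, hqN, hyN⟩ := exists_mem_cyc_of_mem_cycInf hq hy
  haveI := finiteDimensional_cyc N
  haveI := normal_cyc N
  exact Fermat.Agent.PT.Kummer.exists_zpow_valuation_eq (cyc N) hq A hA
    (inertia_le_fixingSubgroup_cyc hq A hA hN hqN) hyN hy0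

/-! ### The inertia field -/

/-- The inertia field `K0 = ℚ̄^{I_A}` of a valuation subring `A` of `ℚ̄`. -/
noncomputable def inertiaField (A : ValuationSubring Qb) : IntermediateField ℚ Qb :=
  IntermediateField.fixedField (A.inertiaSubgroupIn ℚ)

theorem mem_inertiaField_iff (A : ValuationSubring Qb) (x : Qb) :
    x ∈ inertiaField A ↔ ∀ σ ∈ A.inertiaSubgroupIn ℚ, σ x = x := by
  unfold inertiaField
  rw [IntermediateField.mem_fixedField_iff]

/-- Roots of unity of order prime to `q` lie in the inertia field. -/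
theorem mem_inertiaField_of_pow_eq_one {q : ℕ} (hq : q.Prime) (A : ValuationSubring Qb)
    (hA : A.LiesOverPrime q) {ζ : Qb} {N : ℕ} (hN : 0 < N) (hqN : ¬ q ∣ N) (hζ : ζ ^ N = 1) :
    ζ ∈ inertiaField A :=
  (mem_inertiaField_iff A ζ).mpr fun _ hσ =>
    apply_eq_of_mem_inertia_of_pow_eq_one hq A hA hσ hN hqN hζ

/-- **The inertia field is unramified**: an element of `K0` in the maximal ideal of `A` is
divisible by `q`. -/
theorem valuation_le_of_mem_inertiaField {q : ℕ} (hq : q.Prime) (A : ValuationSubring Qb)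
    (hA : A.LiesOverPrime q) {x : Qb} (hx : x ∈ inertiaField A) (hx1 : A.valuation x < 1) :
    A.valuation x ≤ A.valuation (q : Qb) := by
  have hvq : A.valuation (q : Qb) < 1 := A.mem_nonunits_iff.mp hA
  have hq0 : (q : Qb) ≠ 0 := by exact_mod_cast hq.ne_zero
  have hvq0 : 0 < A.valuation (q : Qb) := zero_lt_iff.mpr ((Valuation.ne_zero_iff _).mpr hq0)
  have hfix : ∀ g ∈ A.decompositionSubgroup ℚ ⊓ (cycInf q).fixingSubgroup, g x = x := fun g hg =>
    (mem_inertiaField_iff A x).mp hx g (decomp_inf_fixingSubgroup_cycInf_le hq A hA hg)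
  obtain ⟨y, hy, h⟩ :=
    Fermat.Agent.PT.Kummer.exists_mem_valuation_sub_le (cycInf q) hq A hA x hfix 1
  rw [pow_one] at h
  by_cases hy0 : y = 0
  · rw [hy0, sub_zero] at h
    exact h
  obtain ⟨n, hn⟩ := exists_zpow_valuation_eq_of_mem_cycInf hq A hA hy hy0
  rw [map_zpow₀] at hn
  have hy1 : A.valuation y < 1 := by
    have e : y = x - (x - y) := by ring
    rw [e]
    exact lt_of_le_of_lt (A.valuation.map_sub _ _) (max_lt hx1 (lt_of_le_of_lt h hvq))
  have hyq : A.valuation y ≤ A.valuation (q : Qb) := by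
    rcases lt_trichotomy n 0 with hneg | hzero | hpos
    · have := one_lt_zpow_of_neg₀ hvq0 hvq hneg
      rw [← hn] at this
      exact absurd hy1 (not_lt.mpr this.le)
    · rw [hzero, zpow_zero] at hn
      rw [hn] at hy1
      exact absurd hy1 (lt_irrefl _)
    · obtain ⟨k, rfl⟩ := Int.eq_ofNat_of_zero_le hpos.le
      have hk : 0 < k := by exact_mod_cast hpos
      obtain ⟨j, rfl⟩ := Nat.exists_eq_succ_of_ne_zero hk.ne'
      rw [hn, zpow_natCast, pow_succ]
      calc A.valuation (q : Qb) ^ j * A.valuation (q : Qb)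
          ≤ 1 * A.valuation (q : Qb) := mul_le_mul' (pow_le_one₀ zero_le hvq.le) le_rfl
        _ = A.valuation (q : Qb) := one_mul _
  have e : x = y + (x - y) := by ring
  rw [e]
  exact le_trans (A.valuation.map_add _ _) (max_le hyq h)

/-- Natural-power form of the value group, for integral elements of `K0`. -/
theorem exists_pow_valuation_eq_of_mem_inertiaField {q : ℕ} (hq : q.Prime)
    (A : ValuationSubring Qb) (hA : A.LiesOverPrime q) {x : Qb} (hx : x ∈ inertiaField A)
    (hx0 : x ≠ 0) (hx1 : A.valuation x ≤ 1) :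
    ∃ n : ℕ, A.valuation x = A.valuation (q : Qb) ^ n := by
  have hq0 : (q : Qb) ≠ 0 := by exact_mod_cast hq.ne_zero
  have hvq0 : 0 < A.valuation (q : Qb) := zero_lt_iff.mpr ((Valuation.ne_zero_iff _).mpr hq0)
  obtain ⟨c, hc⟩ := Fermat.Agent.PT.Kummer.exists_pow_valuation_lt hq hA hx0
  induction c generalizing x with
  | zero =>
    rw [pow_zero, map_one] at hc
    exact absurd hx1 (not_le.mpr hc)
  | succ c ih =>
    by_cases h1 : A.valuation x < 1
    · have hle := valuation_le_of_mem_inertiaField hq A hA hx h1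
      have hxq : x / (q : Qb) ∈ inertiaField A := div_mem hx (natCast_mem _ q)
      have hxq0 : x / (q : Qb) ≠ 0 := div_ne_zero hx0 hq0
      have hxq1 : A.valuation (x / (q : Qb)) ≤ 1 := by
        rw [map_div₀, div_le_one₀ hvq0]
        exact hle
      have hcq : A.valuation ((q : Qb) ^ c) < A.valuation (x / (q : Qb)) := by
        rw [map_div₀, lt_div_iff₀ hvq0, ← map_mul, ← pow_succ]
        exact hc
      obtain ⟨n, hn⟩ := ih hxq hxq0 hxq1 hcq
      refine ⟨n + 1, ?_⟩
      rw [pow_succ, ← hn, map_div₀, div_mul_cancel₀ _ hvq0.ne']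
    · exact ⟨0, by rw [pow_zero]; exact le_antisymm hx1 (not_lt.mp h1)⟩

/-- **The value group of the inertia field at `A` is `v(q)^ℤ`.** -/
theorem exists_zpow_valuation_eq_of_mem_inertiaField {q : ℕ} (hq : q.Prime)
    (A : ValuationSubring Qb) (hA : A.LiesOverPrime q) {x : Qb} (hx : x ∈ inertiaField A)
    (hx0 : x ≠ 0) : ∃ n : ℤ, A.valuation x = A.valuation ((q : Qb) ^ n) := by
  rcases le_or_gt (A.valuation x) 1 with h | h
  · obtain ⟨n, hn⟩ := exists_pow_valuation_eq_of_mem_inertiaField hq A hA hx hx0 h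
    exact ⟨n, by rw [zpow_natCast, map_pow]; exact hn⟩
  · have h' : A.valuation x⁻¹ ≤ 1 := by
      rw [map_inv₀]
      exact inv_le_one_of_one_le₀ h.le
    obtain ⟨n, hn⟩ := exists_pow_valuation_eq_of_mem_inertiaField hq A hA (inv_mem hx)
      (inv_ne_zero hx0) h'
    refine ⟨-(n : ℤ), ?_⟩
    rw [zpow_neg, zpow_natCast, map_inv₀, map_pow, ← hn, map_inv₀, inv_inv]

/-! ### The valuation ring `W = A ∩ K0` -/

/-- The valuation ring `W = A ∩ K0` of the inertia field. -/
noncomputable abbrev W (A : ValuationSubring Qb) : ValuationSubring (inertiaField A) :=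
  A.comap (algebraMap (inertiaField A) Qb)

theorem mem_W_iff (A : ValuationSubring Qb) (x : inertiaField A) : x ∈ W A ↔ (x : Qb) ∈ A :=
  Iff.rfl

theorem coe_natCast_W (A : ValuationSubring Qb) (n : ℕ) :
    algebraMap (inertiaField A) Qb (((n : W A) : W A) : inertiaField A) = (n : Qb) := by
  simp

/-- Every nonzero element of `W` has the valuation of a natural power of `q`. -/
theorem exists_pow_valuation_eq_W {q : ℕ} (hq : q.Prime) (A : ValuationSubring Qb)
    (hA : A.LiesOverPrime q) (x : W A) (hx : x ≠ 0) :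
    ∃ n : ℕ, A.valuation (algebraMap (inertiaField A) Qb (x : inertiaField A)) =
      A.valuation (q : Qb) ^ n := by
  have hx0 : algebraMap (inertiaField A) Qb (x : inertiaField A) ≠ 0 := by
    intro h
    apply hx
    apply Subtype.ext
    exact (map_eq_zero (algebraMap (inertiaField A) Qb)).mp h
  exact exists_pow_valuation_eq_of_mem_inertiaField hq A hA (x : inertiaField A).2 hx0
    ((A.valuation_le_one_iff _).mpr x.2)

/-- Every nonzero element of `W` is associated to a power of `q`. -/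
theorem exists_associated_pow_W {q : ℕ} (hq : q.Prime) (A : ValuationSubring Qb)
    (hA : A.LiesOverPrime q) (x : W A) (hx : x ≠ 0) :
    ∃ n : ℕ, Associated (((q : ℕ) : W A) ^ n) x := by
  have hq0 : (q : Qb) ≠ 0 := by exact_mod_cast hq.ne_zero
  have hϖ0 : ((q : ℕ) : W A) ≠ 0 := by
    intro h
    apply hq0
    rw [← coe_natCast_W A q, h]
    simp
  obtain ⟨n, hn⟩ := exists_pow_valuation_eq_W hq A hA x hx
  have hpow : algebraMap (inertiaField A) Qb (((((q : ℕ) : W A) ^ n : W A)) : inertiaField A) =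
      (q : Qb) ^ n := by
    simp
  refine ⟨n, associated_of_dvd_dvd ?_ ?_⟩
  · refine Fermat.Agent.PT.Kummer.dvd_comap_of_valuation_le A _ _ (pow_ne_zero n hϖ0) ?_
    rw [hn, hpow, map_pow]
  · refine Fermat.Agent.PT.Kummer.dvd_comap_of_valuation_le A _ _ hx ?_
    rw [hn, hpow, map_pow]

/-- `q` is irreducible in `W`. -/
theorem irreducible_natCast_W {q : ℕ} (hq : q.Prime) (A : ValuationSubring Qb)
    (hA : A.LiesOverPrime q) : Irreducible ((q : ℕ) : W A) := by
  have hvq : A.valuation (q : Qb) < 1 := A.mem_nonunits_iff.mp hA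
  have hq0 : (q : Qb) ≠ 0 := by exact_mod_cast hq.ne_zero
  have hvq0 : 0 < A.valuation (q : Qb) := zero_lt_iff.mpr ((Valuation.ne_zero_iff _).mpr hq0)
  have hϖ0 : ((q : ℕ) : W A) ≠ 0 := by
    intro h
    apply hq0
    rw [← coe_natCast_W A q, h]
    simp
  refine ⟨?_, ?_⟩
  · rw [Fermat.Agent.PT.Kummer.isUnit_comap_iff, coe_natCast_W]
    exact ne_of_lt hvq
  · intro a b hab
    have ha0 : a ≠ 0 := by
      rintro rfl
      rw [zero_mul] at hab
      exact hϖ0 hab
    have hb0 : b ≠ 0 := by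
      rintro rfl
      rw [mul_zero] at hab
      exact hϖ0 hab
    obtain ⟨i, hi⟩ := exists_pow_valuation_eq_W hq A hA a ha0
    obtain ⟨j, hj⟩ := exists_pow_valuation_eq_W hq A hA b hb0
    have h1 : A.valuation (q : Qb) ^ 1 = A.valuation (q : Qb) ^ (i + j) := by
      rw [pow_one, pow_add, ← hi, ← hj, ← coe_natCast_W A q, hab]
      show A.valuation (algebraMap (inertiaField A) Qb ((a : inertiaField A) * (b : inertiaField A))) = _
      rw [map_mul, map_mul]
    have h2 : 1 = i + j := (pow_right_strictAnti₀ hvq0 hvq).injective h1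
    rcases Nat.eq_zero_or_pos i with h0 | h0
    · left
      rw [Fermat.Agent.PT.Kummer.isUnit_comap_iff, hi, h0, pow_zero]
    · right
      have hj0 : j = 0 := by omega
      rw [Fermat.Agent.PT.Kummer.isUnit_comap_iff, hj, hj0, pow_zero]

/-- **`W = A ∩ ℚ̄^{I_A}` is a discrete valuation ring** (with uniformiser `q`). -/
theorem isDiscreteValuationRing_W {q : ℕ} (hq : q.Prime) (A : ValuationSubring Qb)
    (hA : A.LiesOverPrime q) : IsDiscreteValuationRing (W A) :=
  IsDiscreteValuationRing.ofHasUnitMulPowIrreducibleFactorization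
    ⟨((q : ℕ) : W A), irreducible_natCast_W hq A hA, fun {x} hx => exists_associated_pow_W hq A hA x hx⟩

/-- `W` is Noetherian. -/
theorem isNoetherianRing_W {q : ℕ} (hq : q.Prime) (A : ValuationSubring Qb)
    (hA : A.LiesOverPrime q) : IsNoetherianRing (W A) :=
  haveI := isDiscreteValuationRing_W hq A hA
  inferInstance

/-- The maximal ideal of `W` is generated by `q`. -/
theorem maximalIdeal_W {q : ℕ} (hq : q.Prime) (A : ValuationSubring Qb)
    (hA : A.LiesOverPrime q) :
    IsLocalRing.maximalIdeal (W A) = Ideal.span {((q : ℕ) : W A)} := by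
  haveI := isDiscreteValuationRing_W hq A hA
  exact (irreducible_natCast_W hq A hA).maximalIdeal_eq

/-! ### The residue field of `W` is that of `A` -/

/-- A root of unity is a unit of `A`. -/
theorem valuation_eq_one_of_pow_eq_one (A : ValuationSubring Qb) {ζ : Qb} {N : ℕ} (hN : 0 < N)
    (hζ : ζ ^ N = 1) : A.valuation ζ = 1 := by
  have h : A.valuation ζ ^ N = 1 := by rw [← map_pow, hζ, map_one]
  rcases lt_trichotomy (A.valuation ζ) 1 with h1 | h1 | h1
  · exact absurd h (ne_of_lt (pow_lt_one₀ zero_le h1 hN.ne'))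
  · exact h1
  · exact absurd h (ne_of_gt (one_lt_pow₀ h1 hN.ne'))

/-- **`K0` has the residue field of `A`**: every element of `A` is congruent, modulo the maximal
ideal of `A`, to an element of `A ∩ K0` (namely `0` or a root of unity of order prime to `q`). -/
theorem exists_mem_inertiaField_valuation_sub_lt_one {q : ℕ} (hq : q.Prime)
    (A : ValuationSubring Qb) (hA : A.LiesOverPrime q) {a : Qb} (ha : a ∈ A) :
    ∃ w : Qb, w ∈ inertiaField A ∧ w ∈ A ∧ A.valuation (a - w) < 1 := by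
  haveI : Algebra.IsAlgebraic ℚ Qb := Fermat.Agent.Lib.GalQbar.isAlgebraic_rat
  obtain ⟨y, z, hy, hz, hyA, hyu, hyz⟩ :=
    Fermat.Agent.Lib.ValuationIntegral.exists_integral_mul_eq A hq hA ha
  have hy1 : A.valuation y = 1 := by
    refine le_antisymm ((A.valuation_le_one_iff y).mpr hyA) ?_
    by_contra hlt
    exact hyu (A.mem_nonunits_iff.mpr (not_le.mp hlt))
  have hy0 : y ≠ 0 := by
    rintro rfl
    rw [map_zero] at hy1
    exact zero_ne_one hy1
  have haz : a = z / y := by rw [← hyz, mul_div_cancel_right₀ _ hy0]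
  rcases exists_root_of_unity_of_isIntegral hq A hA hy with h | ⟨ζy, Ny, hNy, hqNy, hζy, hy'⟩
  · rw [hy1] at h
    exact absurd h (lt_irrefl _)
  have hζy1 := valuation_eq_one_of_pow_eq_one A hNy hζy
  have hζy0 : ζy ≠ 0 := by
    rintro rfl
    rw [map_zero] at hζy1
    exact zero_ne_one hζy1
  rcases exists_root_of_unity_of_isIntegral hq A hA hz with h | ⟨ζz, Nz, hNz, hqNz, hζz, hz'⟩
  · refine ⟨0, zero_mem _, A.zero_mem, ?_⟩
    rw [sub_zero, haz, map_div₀, hy1, div_one]
    exact h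
  have hζz1 := valuation_eq_one_of_pow_eq_one A hNz hζz
  refine ⟨ζz / ζy, div_mem (mem_inertiaField_of_pow_eq_one hq A hA hNz hqNz hζz)
    (mem_inertiaField_of_pow_eq_one hq A hA hNy hqNy hζy), ?_, ?_⟩
  · rw [← A.valuation_le_one_iff, map_div₀, hζz1, hζy1, div_one]
  · have e : a - ζz / ζy = ((z - ζz) * ζy - ζz * (y - ζy)) / (y * ζy) := by
      rw [haz]
      field_simp
      ring
    rw [e, map_div₀, map_mul, hy1, hζy1, mul_one, div_one]
    refine lt_of_le_of_lt (A.valuation.map_sub _ _) (max_lt ?_ ?_)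
    · rw [map_mul, hζy1, mul_one]
      exact hz'
    · rw [map_mul, hζz1, one_mul]
      exact hy'

/-- The same statement with the witness in `W`. -/
theorem exists_W_valuation_sub_lt_one {q : ℕ} (hq : q.Prime) (A : ValuationSubring Qb)
    (hA : A.LiesOverPrime q) (a : A) :
    ∃ w : W A, A.valuation ((a : Qb) - algebraMap (inertiaField A) Qb (w : inertiaField A)) < 1 := by
  obtain ⟨w, hw, hwA, h⟩ := exists_mem_inertiaField_valuation_sub_lt_one hq A hA a.2
  exact ⟨⟨⟨w, hw⟩, hwA⟩, h⟩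

end Fermat.Agent.CAR.K0
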