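/-
CAR / K0 (Galois half of task CAR-1).

`A` a valuation subring of `ℚ̄`, `I := A.inertiaSubgroupIn ℚ ≤ G_ℚ` its inertia group,
`K0 := ℚ̄^I = IntermediateField.fixedField I` the inertia field.

* `isClosed_inertia` : `I` is closed in the Krull topology.
* `fixingSubgroup_fixedField_inertia` : `Gal(ℚ̄/K0) = I`.
* `mem_fixedField_inertia_iff`, `mem_inertia_iff_forall_fixed` : the two directions of the
  dictionary "`σ x = x` for all `σ ∈ I` iff `x ∈ K0`", "`σ` fixes `K0` iff `σ ∈ I`".
* `exists_mem_inertia_of_algHom` : every `K0`-embedding of an intermediate field `E` of `ℚ̄/K0`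
  into `ℚ̄` is the restriction of an element of `I`.
* `exists_mem_inertia_of_finite` : `Gal(E/K0)` is the image of `I` (for `E/K0` normal).
* `galEquiv` : `Gal(ℚ̄/K0) ≃* I`.
-/
import Mathlib
import Fermat.Agent.PT.G.DecompBasic
import Fermat.Agent.PT.Levels

set_option autoImplicit false
set_option linter.style.haveILetI false

namespace Fermat.Agent.CAR.K0

local notation "Qb" => AlgebraicClosure ℚ
local notation "GQ" => (AlgebraicClosure ℚ ≃ₐ[ℚ] AlgebraicClosure ℚ)

open Fermat.Agent.Lib.GalQbar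

attribute [local instance] isAlgClosure_rat isGalois_rat Fermat.Agent.Lib.GalQbar.isAlgebraic_rat

/-- The inertia group of any valuation subring of `ℚ̄` is closed in the Krull topology. -/
theorem isClosed_inertia (A : ValuationSubring Qb) :
    IsClosed (A.inertiaSubgroupIn ℚ : Set GQ) := by
  have hset : (A.inertiaSubgroupIn ℚ : Set GQ)
      = (A.decompositionSubgroup ℚ : Set GQ)
        ∩ (⋂ x ∈ (A : Set Qb), {σ : GQ | σ x ∈ {y : Qb | y - x ∈ A.nonunits}}) := by
    ext g
    simp only [SetLike.mem_coe, Set.mem_inter_iff, Set.mem_iInter, Set.mem_ofPred_eq]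
    exact Fermat.Agent.PT.Levels.mem_inertiaSubgroupIn_iff A g
  rw [hset]
  exact (Fermat.Agent.PT.G.isClosed_decompositionSubgroup A).inter
    (isClosed_biInter fun x _ => Fermat.Agent.PT.G.isClosed_setOf_apply_mem x _)

/-- **Galois correspondence for the inertia field**: `Gal(ℚ̄/ℚ̄^I) = I`. -/
theorem fixingSubgroup_fixedField_inertia (A : ValuationSubring Qb) :
    (IntermediateField.fixedField (A.inertiaSubgroupIn ℚ)).fixingSubgroup
      = A.inertiaSubgroupIn ℚ :=
  InfiniteGalois.fixingSubgroup_fixedField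
    (⟨A.inertiaSubgroupIn ℚ, isClosed_inertia A⟩ : ClosedSubgroup GQ)

/-- `x ∈ K0` iff `x` is fixed by the inertia group. -/
theorem mem_fixedField_inertia_iff (A : ValuationSubring Qb) (x : Qb) :
    x ∈ IntermediateField.fixedField (A.inertiaSubgroupIn ℚ)
      ↔ ∀ σ ∈ A.inertiaSubgroupIn ℚ, σ x = x := by
  rw [IntermediateField.mem_fixedField_iff]

/-- `σ ∈ I` iff `σ` fixes the inertia field `K0` pointwise. -/
theorem mem_inertia_iff_forall_fixed (A : ValuationSubring Qb) (σ : GQ) :
    σ ∈ A.inertiaSubgroupIn ℚ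
      ↔ ∀ x ∈ IntermediateField.fixedField (A.inertiaSubgroupIn ℚ), σ x = x := by
  conv_lhs => rw [← fixingSubgroup_fixedField_inertia A]
  rw [IntermediateField.mem_fixingSubgroup_iff]

section Lift

variable (A : ValuationSubring Qb)

local notation "K0" => IntermediateField.fixedField (A.inertiaSubgroupIn ℚ)

instance isAlgebraic_K0 : Algebra.IsAlgebraic K0 Qb :=
  Algebra.IsAlgebraic.tower_top (K := ℚ) K0

instance isAlgClosure_K0 : IsAlgClosure K0 Qb := ⟨inferInstance, inferInstance⟩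

instance normal_K0 : Normal K0 Qb := IsAlgClosure.normal K0 Qb

/-- Every automorphism of `ℚ̄` over `K0`, seen over `ℚ`, lies in the inertia group. -/
theorem restrictScalars_mem_inertia (s : Qb ≃ₐ[K0] Qb) :
    s.restrictScalars ℚ ∈ A.inertiaSubgroupIn ℚ := by
  rw [mem_inertia_iff_forall_fixed]
  intro x hx
  exact s.commutes ⟨x, hx⟩

/-- **`Gal(ℚ̄/K0) = I`, embedding form**: every `K0`-embedding of an intermediate field `E` of
`ℚ̄/K0` into `ℚ̄` is the restriction of an element of the inertia group. -/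
theorem exists_mem_inertia_of_algHom (E : IntermediateField K0 Qb) (φ : E →ₐ[K0] Qb) :
    ∃ σ ∈ A.inertiaSubgroupIn ℚ, ∀ e : E, σ (e : Qb) = φ e := by
  let ψ : Qb →ₐ[K0] Qb := φ.liftNormal Qb
  let s : Qb ≃ₐ[K0] Qb := AlgEquiv.ofBijective ψ (Algebra.IsAlgebraic.algHom_bijective ψ)
  refine ⟨s.restrictScalars ℚ, restrictScalars_mem_inertia A s, fun e => ?_⟩
  exact φ.liftNormal_commutes Qb e

/-- **`Gal(E/K0)` is the image of `I`** (task CAR-1, last item): for `E/K0` normal inside `ℚ̄`,
every `τ ∈ Gal(E/K0)` is the restriction of an element of the inertia group. -/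
theorem exists_mem_inertia_of_finite (E : IntermediateField K0 Qb) (τ : E ≃ₐ[K0] E) :
    ∃ σ ∈ A.inertiaSubgroupIn ℚ, ∀ e : E, σ (e : Qb) = (τ e : Qb) := by
  obtain ⟨σ, hσ, h⟩ := exists_mem_inertia_of_algHom A E (E.val.comp (τ : E →ₐ[K0] E))
  exact ⟨σ, hσ, fun e => h e⟩

/-- `Gal(ℚ̄/K0) ≃* I`. -/
noncomputable def galEquiv : (Qb ≃ₐ[K0] Qb) ≃* (A.inertiaSubgroupIn ℚ) :=
  (IntermediateField.fixingSubgroupEquiv K0).symm.trans
    (MulEquiv.subgroupCongr (fixingSubgroup_fixedField_inertia A))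

theorem galEquiv_apply (s : Qb ≃ₐ[K0] Qb) (x : Qb) :
    ((galEquiv A s : A.inertiaSubgroupIn ℚ) : GQ) x = s x := rfl

end Lift

end Fermat.Agent.CAR.K0
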