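/-
CAR-1, instance side: the standing hypotheses `BAD.TwoVal.BadSetup` of the two-valuation layer
hold for the base `(L, A, π, k) = (K0, W0, resW0, residue field of A)`: the inertia field of a
valuation subring `A` of `ℚ̄` over `q`, its discrete valuation ring `W0 = A ∩ K0`, and the residue
map with values in the (algebraically closed) residue field of `A`.
-/
import Mathlib
import Fermat.Agent.CAR.K0
import Fermat.Agent.BAD.TwoVal.Pair

set_option autoImplicit false

namespace Fermat.Agent.CAR.K0

local notation "Qb" => AlgebraicClosure ℚ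

/-- `BadSetup` for `(K0, W0, resW0)` and a level `M` prime to `q`. -/
theorem badSetup_W0 {q : ℕ} (hq : q.Prime) {A : ValuationSubring Qb} (hA : A.LiesOverPrime q)
    (M : ℕ) [NeZero M] [NeZero q] (hqM : ¬ q ∣ M) :
    Fermat.Agent.BAD.TwoVal.BadSetup (W0 A) (resW0 A) M q := by
  have hqk : (q : IsLocalRing.ResidueField A) = 0 := resW0_natCast_eq_zero hq hA
  have : CharP (IsLocalRing.ResidueField A) q := (CharP.charP_iff_prime_eq_zero hq).mpr hqk
  exact ⟨resW0_eq_zero_of_not_isUnit A, hrank_W0 hq hA, hq, hqk,
    fun h0 => hqM ((CharP.cast_eq_zero_iff (IsLocalRing.ResidueField A) q M).mp h0)⟩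

end Fermat.Agent.CAR.K0
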