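import Mathlib
import Fermat.Agent.CAR.K0.Basic

/-!
# CAR: the field `K0(ζ_q)` — base of the middle-cusp expansion

`A` a valuation subring of `ℚ̄` over the prime `q`, `K0 = inertiaField A`, `ζ` a primitive `q`-th
root of unity.  The expansion of the modular function field of level `q² M'` at the middle cusp
has coefficients in `K0(ζ)`; the valuation `w_mid` is the Gauss valuation of that expansion.

* `valuation_one_sub_zeta_pow` : `v(1 - ζ)^(q-1) = v(q)`;
* `exists_sum_pow_of_mem_adjoin` : `K0(ζ) = ∑_{j < q-1} K0 · (1 - ζ)^j`;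
* `exists_zpow_valuation_eq_of_mem_inertiaFieldZeta` : **the value group of `K0(ζ)` at `A` is
  `v(1 - ζ)^ℤ`** (`K0(ζ)/K0` is totally ramified of index `q - 1`);
* `isDiscreteValuationRing_comap_of_zpow` : a general criterion (value group `v(π)^ℤ`);
* `isDiscreteValuationRing_WZeta` : `A ∩ K0(ζ)` is a discrete valuation ring with uniformiser
  `1 - ζ` (`irreducible_one_sub_zeta`), with the residue field of `A`
  (`exists_mem_inertiaFieldZeta_valuation_sub_lt_one`).
-/

set_option autoImplicit false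
set_option linter.style.haveILetI false

namespace Fermat.Agent.CAR.K0

open Polynomial

local notation "Qb" => AlgebraicClosure ℚ

/-! ### The valuation of `1 - ζ` -/

theorem zeta_mem_of_isPrimitiveRoot (A : ValuationSubring Qb) {q : ℕ} (hq : 0 < q) {ζ : Qb}
    (hζ : ζ ^ q = 1) : ζ ∈ A :=
  Fermat.Agent.Lib.ValuationIntegral.mem_of_isIntegral_int A
    ⟨X ^ q - 1, monic_X_pow_sub_C (1 : ℤ) hq.ne', by
      rw [eval₂_sub, eval₂_pow, eval₂_X, eval₂_one, hζ, sub_self]⟩

/-- `v(1 - μ) ≤ v(1 - ζ)` for `μ` a power of `ζ`. -/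
theorem valuation_one_sub_le (A : ValuationSubring Qb) {q : ℕ} (hq : 0 < q) {ζ μ : Qb}
    (hζ : IsPrimitiveRoot ζ q) (hμ : μ ^ q = 1) :
    A.valuation (1 - μ) ≤ A.valuation (1 - ζ) := by
  haveI : NeZero q := ⟨hq.ne'⟩
  obtain ⟨i, -, rfl⟩ := hζ.eq_pow_of_pow_eq_one hμ
  have hζA : A.valuation ζ ≤ 1 :=
    (A.valuation_le_one_iff ζ).mpr (zeta_mem_of_isPrimitiveRoot A hq hζ.pow_eq_one)
  rw [← mul_neg_geom_sum ζ i, map_mul]
  have h2 : A.valuation (∑ j ∈ Finset.range i, ζ ^ j) ≤ 1 := by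
    refine A.valuation.map_sum_le fun j _ => ?_
    rw [map_pow]
    exact pow_le_one₀ zero_le hζA
  calc A.valuation (1 - ζ) * A.valuation (∑ j ∈ Finset.range i, ζ ^ j)
      ≤ A.valuation (1 - ζ) * 1 := mul_le_mul' le_rfl h2
    _ = A.valuation (1 - ζ) := mul_one _

/-- `v(1 - ζ)^(q-1) = v(q)` for a primitive `q`-th root of unity `ζ`, `q` prime. -/
theorem valuation_one_sub_zeta_pow (A : ValuationSubring Qb) {q : ℕ} (hq : q.Prime) {ζ : Qb}
    (hζ : IsPrimitiveRoot ζ q) :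
    A.valuation (1 - ζ) ^ (q - 1) = A.valuation (q : Qb) := by
  haveI : Fact q.Prime := ⟨hq⟩
  have h1 : (q : Qb) = ∏ μ ∈ primitiveRoots q Qb, (1 - μ) := by
    have h := eval_one_cyclotomic_prime (R := Qb) (p := q)
    rw [cyclotomic_eq_prod_X_sub_primitiveRoots hζ, eval_prod] at h
    rw [← h]
    refine Finset.prod_congr rfl fun μ _ => ?_
    rw [eval_sub, eval_X, eval_C]
  rw [h1, map_prod]
  have h2 : ∀ μ ∈ primitiveRoots q Qb, A.valuation (1 - μ) = A.valuation (1 - ζ) := by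
    intro μ hμ
    have hμ' : IsPrimitiveRoot μ q := (mem_primitiveRoots hq.pos).mp hμ
    exact le_antisymm (valuation_one_sub_le A hq.pos hζ hμ'.pow_eq_one)
      (valuation_one_sub_le A hq.pos hμ' hζ.pow_eq_one)
  rw [Finset.prod_congr rfl h2, Finset.prod_const, hζ.card_primitiveRoots, Nat.totient_prime hq]

theorem valuation_one_sub_zeta_lt_one (A : ValuationSubring Qb) {q : ℕ} (hq : q.Prime)
    (hA : A.LiesOverPrime q) {ζ : Qb} (hζ : IsPrimitiveRoot ζ q) : A.valuation (1 - ζ) < 1 := by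
  have hvq : A.valuation (q : Qb) < 1 := A.mem_nonunits_iff.mp hA
  by_contra h
  rw [not_lt] at h
  have := one_le_pow₀ (n := q - 1) h
  rw [valuation_one_sub_zeta_pow A hq hζ] at this
  exact absurd hvq (not_lt.mpr this)

theorem one_sub_zeta_ne_zero {q : ℕ} (hq : q.Prime) {ζ : Qb} (hζ : IsPrimitiveRoot ζ q) :
    (1 : Qb) - ζ ≠ 0 := by
  intro h
  exact hζ.ne_one hq.one_lt (sub_eq_zero.mp h).symm

/-! ### `K(ζ) = ∑_{j < q-1} K · (1 - ζ)^j` -/

/-- Every element of `K(ζ)` (`K` any intermediate field, `ζ` a primitive `q`-th root of unity,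
`q` prime) is a `K`-combination of `(1 - ζ)^j`, `j < q - 1`. -/
theorem exists_sum_pow_of_mem_adjoin (K : IntermediateField ℚ Qb) {q : ℕ} (hq : q.Prime) {ζ : Qb} (hζ : IsPrimitiveRoot ζ q) {x : Qb}
    (hx : x ∈ IntermediateField.adjoin K {ζ}) :
    ∃ c : ℕ → K, x = ∑ j ∈ Finset.range (q - 1), (c j : Qb) * (1 - ζ) ^ j := by
  have hint : IsIntegral K ζ := ⟨X ^ q - 1, monic_X_pow_sub_C (1 : K) hq.ne_zero, by
    rw [eval₂_sub, eval₂_pow, eval₂_X, eval₂_one, hζ.pow_eq_one, sub_self]⟩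
  have hx' : x ∈ (IntermediateField.adjoin K {ζ}).toSubalgebra := hx
  rw [IntermediateField.adjoin_simple_toSubalgebra_of_isAlgebraic hint.isAlgebraic,
    Algebra.adjoin_singleton_eq_range_aeval] at hx'
  obtain ⟨p, rfl⟩ := hx'
  -- change of variable `X ↦ 1 - X`
  set L : K[X] := C 1 - X with hL
  have hLdeg : L.natDegree = 1 := by
    rw [hL, show (C 1 - X : K[X]) = C (-1) * X + C 1 by rw [map_neg, map_one]; ring]
    exact natDegree_linear (by norm_num)
  have hLlead : L.leadingCoeff = -1 := by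
    rw [hL, show (C 1 - X : K[X]) = C (-1) * X + C 1 by rw [map_neg, map_one]; ring]
    exact leadingCoeff_linear (by norm_num)
  have hLeval : aeval (1 - ζ) L = ζ := by
    rw [hL, map_sub, aeval_C, aeval_X, map_one]
    ring
  have hcomp : ∀ r : K[X], aeval (1 - ζ) (r.comp L) = aeval ζ r := by
    intro r
    rw [aeval_comp, hLeval]
  -- a monic polynomial of degree `q - 1` vanishing at `1 - ζ`
  set g₀ : K[X] := cyclotomic q K with hg₀
  have hg₀m : g₀.Monic := cyclotomic.monic q K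
  have hg₀deg : g₀.natDegree = q - 1 := by
    rw [hg₀, natDegree_cyclotomic, Nat.totient_prime hq]
  have hg₀root : aeval ζ g₀ = 0 := by
    rw [hg₀, aeval_def, eval₂_eq_eval_map, map_cyclotomic]
    exact hζ.isRoot_cyclotomic hq.pos
  set g : K[X] := C ((-1 : K) ^ (q - 1)) * g₀.comp L with hg
  have hcompdeg : (g₀.comp L).natDegree = q - 1 := by
    rw [natDegree_comp, hLdeg, mul_one, hg₀deg]
  have hcomplead : (g₀.comp L).leadingCoeff = (-1 : K) ^ (q - 1) := by
    rw [leadingCoeff_comp (by rw [hLdeg]; exact one_ne_zero), hg₀m.leadingCoeff, one_mul, hLlead,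
      hg₀deg]
  have hunit : ((-1 : K) ^ (q - 1)) * ((-1 : K) ^ (q - 1)) = 1 := by
    rw [← mul_pow]
    norm_num
  have hgm : g.Monic := by
    rw [Monic, hg, leadingCoeff_mul, leadingCoeff_C, hcomplead]
    exact hunit
  have hgdeg : g.natDegree = q - 1 := by
    rw [hg, natDegree_C_mul (pow_ne_zero _ (by norm_num)), hcompdeg]
  have hgroot : aeval (1 - ζ) g = 0 := by
    rw [hg, map_mul, hcomp, hg₀root, mul_zero]
  have hg1 : g ≠ 1 := by
    intro h
    have h1 : g.natDegree = 0 := by rw [h, natDegree_one]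
    rw [hgdeg] at h1
    have := hq.two_le
    omega
  set r : K[X] := (p.comp L) %ₘ g with hr
  have hrdeg : r.natDegree < q - 1 := by
    rw [← hgdeg]
    exact natDegree_modByMonic_lt _ hgm hg1
  have hrval : aeval (1 - ζ) r = aeval ζ p := by
    rw [hr, aeval_modByMonic_eq_self_of_root hgroot, hcomp]
  refine ⟨fun j => r.coeff j, ?_⟩
  show aeval ζ p = _
  rw [← hrval, aeval_eq_sum_range' hrdeg]
  refine Finset.sum_congr rfl fun j _ => ?_
  rw [Algebra.smul_def]
  rfl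

/-! ### Valuations of `π`-adic expansions with coefficients of valuation in `v(π)^(eℤ)` -/

/-- If the nonzero coefficients `c j` have valuations in `v(π)^(eℤ)`, then a nonzero sum
`∑_{j < e} c j * π^j` has valuation in `v(π)^ℤ` (the terms have pairwise distinct valuations). -/
theorem exists_zpow_valuation_sum (A : ValuationSubring Qb) {π : Qb} (hπ0 : π ≠ 0)
    (hπ1 : A.valuation π < 1) (e : ℕ) (c : ℕ → Qb)
    (hc : ∀ j, c j ≠ 0 → ∃ n : ℤ, A.valuation (c j) = A.valuation π ^ ((e : ℤ) * n))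
    (hne : ∃ j < e, c j ≠ 0) :
    ∃ n : ℤ, A.valuation (∑ j ∈ Finset.range e, c j * π ^ j) = A.valuation π ^ n := by
  classical
  have hvπ0 : 0 < A.valuation π := zero_lt_iff.mpr ((Valuation.ne_zero_iff _).mpr hπ0)
  have hterm : ∀ j, c j ≠ 0 →
      ∃ n : ℤ, A.valuation (c j * π ^ j) = A.valuation π ^ ((e : ℤ) * n + j) := by
    intro j hj
    obtain ⟨n, hn⟩ := hc j hj
    exact ⟨n, by rw [map_mul, map_pow, hn, zpow_add₀ hvπ0.ne', zpow_natCast]⟩
  obtain ⟨j₁, hj₁e, hj₁⟩ := hne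
  obtain ⟨j₀, hj₀mem, hj₀max⟩ := Finset.exists_max_image (Finset.range e)
    (fun j => A.valuation (c j * π ^ j)) ⟨j₁, Finset.mem_range.mpr hj₁e⟩
  have hj₀e : j₀ < e := Finset.mem_range.mp hj₀mem
  have hpos₁ : 0 < A.valuation (c j₁ * π ^ j₁) :=
    zero_lt_iff.mpr ((Valuation.ne_zero_iff _).mpr (mul_ne_zero hj₁ (pow_ne_zero _ hπ0)))
  have hpos₀ : 0 < A.valuation (c j₀ * π ^ j₀) :=
    lt_of_lt_of_le hpos₁ (hj₀max j₁ (Finset.mem_range.mpr hj₁e))
  have hc₀ : c j₀ ≠ 0 := by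
    rintro h
    rw [h, zero_mul, map_zero] at hpos₀
    exact lt_irrefl _ hpos₀
  obtain ⟨n₀, hn₀⟩ := hterm j₀ hc₀
  refine ⟨(e : ℤ) * n₀ + j₀, ?_⟩
  rw [← hn₀]
  refine A.valuation.map_sum_eq_of_lt hj₀mem fun i hi => ?_
  rw [Finset.mem_sdiff, Finset.mem_singleton] at hi
  obtain ⟨hie, hij⟩ := hi
  have hie' : i < e := Finset.mem_range.mp hie
  by_cases hci : c i = 0
  · rw [hci, zero_mul, map_zero]
    exact hpos₀
  · refine lt_of_le_of_ne (hj₀max i hie) fun heq => hij ?_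
    obtain ⟨n, hn⟩ := hterm i hci
    rw [hn, hn₀] at heq
    have h1 : (e : ℤ) * n + i = (e : ℤ) * n₀ + j₀ :=
      zpow_right_injective₀ hvπ0 (ne_of_lt hπ1) heq
    have h2 : ((e : ℤ) * n + i) % (e : ℤ) = ((e : ℤ) * n₀ + j₀) % (e : ℤ) := by rw [h1]
    rw [add_comm, Int.add_mul_emod_self_left, add_comm ((e : ℤ) * n₀),
      Int.add_mul_emod_self_left,
      Int.emod_eq_of_lt (Int.natCast_nonneg i) (by exact_mod_cast hie'),
      Int.emod_eq_of_lt (Int.natCast_nonneg j₀) (by exact_mod_cast hj₀e)] at h2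
    exact_mod_cast h2

/-! ### The field `K0(ζ)` and its value group -/

/-- `K0(ζ)`, as an intermediate field of `ℚ̄/ℚ`. -/
noncomputable def inertiaFieldZeta (A : ValuationSubring Qb) (ζ : Qb) : IntermediateField ℚ Qb :=
  (IntermediateField.adjoin (inertiaField A) {ζ}).restrictScalars ℚ

theorem mem_inertiaFieldZeta_iff (A : ValuationSubring Qb) (ζ x : Qb) :
    x ∈ inertiaFieldZeta A ζ ↔ x ∈ IntermediateField.adjoin (inertiaField A) {ζ} :=
  Iff.rfl

theorem zeta_mem_inertiaFieldZeta (A : ValuationSubring Qb) (ζ : Qb) :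
    ζ ∈ inertiaFieldZeta A ζ :=
  IntermediateField.mem_adjoin_simple_self _ ζ

theorem inertiaField_le_inertiaFieldZeta (A : ValuationSubring Qb) (ζ : Qb) :
    inertiaField A ≤ inertiaFieldZeta A ζ := by
  intro x hx
  exact (IntermediateField.adjoin (inertiaField A) {ζ}).algebraMap_mem ⟨x, hx⟩

theorem one_sub_zeta_mem_inertiaFieldZeta (A : ValuationSubring Qb) (ζ : Qb) :
    1 - ζ ∈ inertiaFieldZeta A ζ :=
  sub_mem (one_mem _) (zeta_mem_inertiaFieldZeta A ζ)

/-- **The value group of `K0(ζ_q)` at `A` is `v(1 - ζ)^ℤ`**: `K0(ζ_q)/K0` is totally ramified of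
index `q - 1`. -/
theorem exists_zpow_valuation_eq_of_mem_inertiaFieldZeta {q : ℕ} (hq : q.Prime)
    (A : ValuationSubring Qb) (hA : A.LiesOverPrime q) {ζ : Qb} (hζ : IsPrimitiveRoot ζ q)
    {x : Qb} (hx : x ∈ inertiaFieldZeta A ζ) (hx0 : x ≠ 0) :
    ∃ n : ℤ, A.valuation x = A.valuation (1 - ζ) ^ n := by
  obtain ⟨c, rfl⟩ := exists_sum_pow_of_mem_adjoin (inertiaField A) hq hζ hx
  refine exists_zpow_valuation_sum A (one_sub_zeta_ne_zero hq hζ)
    (valuation_one_sub_zeta_lt_one A hq hA hζ) (q - 1) (fun j => (c j : Qb)) ?_ ?_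
  · intro j hj
    obtain ⟨n, hn⟩ := exists_zpow_valuation_eq_of_mem_inertiaField hq A hA (c j).2 hj
    refine ⟨n, ?_⟩
    rw [hn, map_zpow₀, zpow_mul, zpow_natCast, valuation_one_sub_zeta_pow A hq hζ]
  · by_contra h
    push Not at h
    apply hx0
    refine Finset.sum_eq_zero fun j hj => ?_
    rw [h j (Finset.mem_range.mp hj), zero_mul]

/-! ### A criterion for discrete valuation rings `A ∩ M` -/

/-- If the value group of `M` at `A` is `v(π)^ℤ` with `π ∈ M`, `0 < v(π) < 1`, then `A ∩ M` is a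
discrete valuation ring with uniformiser `π`. -/
theorem isDiscreteValuationRing_comap_of_zpow (A : ValuationSubring Qb)
    (M : IntermediateField ℚ Qb) {π : Qb} (hπM : π ∈ M) (hπ0 : π ≠ 0) (hπ1 : A.valuation π < 1)
    (h : ∀ x ∈ M, x ≠ 0 → ∃ n : ℤ, A.valuation x = A.valuation π ^ n) :
    IsDiscreteValuationRing (A.comap (algebraMap M Qb)) ∧
      Irreducible (⟨⟨π, hπM⟩, (A.valuation_le_one_iff _).mp hπ1.le⟩ : A.comap (algebraMap M Qb)) := by
  have hvπ0 : 0 < A.valuation π := zero_lt_iff.mpr ((Valuation.ne_zero_iff _).mpr hπ0)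
  set ϖ : A.comap (algebraMap M Qb) := ⟨⟨π, hπM⟩, (A.valuation_le_one_iff _).mp hπ1.le⟩ with hϖdef
  have hϖ : A.valuation (algebraMap M Qb (ϖ : M)) = A.valuation π := rfl
  have hϖ0 : ϖ ≠ 0 := fun h0 => hπ0 (congrArg (fun t : A.comap (algebraMap M Qb) =>
    algebraMap M Qb (t : M)) h0)
  have hnat : ∀ x : A.comap (algebraMap M Qb), x ≠ 0 →
      ∃ n : ℕ, A.valuation (algebraMap M Qb (x : M)) = A.valuation π ^ n := by
    intro x hx
    have hx0 : algebraMap M Qb (x : M) ≠ 0 := by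
      intro h0
      apply hx
      apply Subtype.ext
      exact (map_eq_zero (algebraMap M Qb)).mp h0
    obtain ⟨n, hn⟩ := h _ (x : M).2 hx0
    have hle : A.valuation (algebraMap M Qb (x : M)) ≤ 1 := (A.valuation_le_one_iff _).mpr x.2
    have hn0 : 0 ≤ n := by
      by_contra hneg
      rw [not_le] at hneg
      have := one_lt_zpow_of_neg₀ hvπ0 hπ1 hneg
      rw [← hn] at this
      exact not_le.mpr this hle
    obtain ⟨k, rfl⟩ := Int.eq_ofNat_of_zero_le hn0
    exact ⟨k, hn.trans (zpow_natCast _ _)⟩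
  have hassoc : ∀ x : A.comap (algebraMap M Qb), x ≠ 0 → ∃ n : ℕ, Associated (ϖ ^ n) x := by
    intro x hx
    obtain ⟨n, hn⟩ := hnat x hx
    refine ⟨n, associated_of_dvd_dvd ?_ ?_⟩
    · refine Fermat.Agent.PT.Kummer.dvd_comap_of_valuation_le A _ _ (pow_ne_zero n hϖ0) ?_
      rw [hn]
      show A.valuation π ^ n ≤
        A.valuation (algebraMap M Qb ((ϖ ^ n : A.comap (algebraMap M Qb)) : M))
      rw [show algebraMap M Qb ((ϖ ^ n : A.comap (algebraMap M Qb)) : M) = π ^ n from rfl, map_pow]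
    · refine Fermat.Agent.PT.Kummer.dvd_comap_of_valuation_le A _ _ hx ?_
      rw [hn, show algebraMap M Qb ((ϖ ^ n : A.comap (algebraMap M Qb)) : M) = π ^ n from rfl,
        map_pow]
  have hirr : Irreducible ϖ := by
    refine ⟨?_, ?_⟩
    · rw [Fermat.Agent.PT.Kummer.isUnit_comap_iff, hϖ]
      exact ne_of_lt hπ1
    · intro a b hab
      have ha0 : a ≠ 0 := by
        rintro rfl
        rw [zero_mul] at hab
        exact hϖ0 hab
      have hb0 : b ≠ 0 := by
        rintro rfl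
        rw [mul_zero] at hab
        exact hϖ0 hab
      obtain ⟨i, hi⟩ := hnat a ha0
      obtain ⟨j, hj⟩ := hnat b hb0
      have h1 : A.valuation π ^ 1 = A.valuation π ^ (i + j) := by
        rw [pow_one, pow_add, ← hi, ← hj, ← hϖ, hab]
        show A.valuation (algebraMap M Qb ((a : M) * (b : M))) = _
        rw [map_mul, map_mul]
      have h2 : 1 = i + j := (pow_right_strictAnti₀ hvπ0 hπ1).injective h1
      rcases Nat.eq_zero_or_pos i with h0 | h0
      · left
        rw [Fermat.Agent.PT.Kummer.isUnit_comap_iff, hi, h0, pow_zero]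
      · right
        have hj0 : j = 0 := by omega
        rw [Fermat.Agent.PT.Kummer.isUnit_comap_iff, hj, hj0, pow_zero]
  exact ⟨IsDiscreteValuationRing.ofHasUnitMulPowIrreducibleFactorization
    ⟨ϖ, hirr, fun {x} hx => hassoc x hx⟩, hirr⟩

/-! ### The valuation ring of `K0(ζ)` -/

/-- The valuation ring `A ∩ K0(ζ)`. -/
noncomputable abbrev WZeta (A : ValuationSubring Qb) (ζ : Qb) :
    ValuationSubring (inertiaFieldZeta A ζ) :=
  A.comap (algebraMap (inertiaFieldZeta A ζ) Qb)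

/-- The element `1 - ζ` of `A ∩ K0(ζ)`. -/
noncomputable def oneSubZeta {q : ℕ} (hq : q.Prime) (A : ValuationSubring Qb)
    (hA : A.LiesOverPrime q) {ζ : Qb} (hζ : IsPrimitiveRoot ζ q) : WZeta A ζ :=
  ⟨⟨1 - ζ, one_sub_zeta_mem_inertiaFieldZeta A ζ⟩,
    (A.valuation_le_one_iff _).mp (valuation_one_sub_zeta_lt_one A hq hA hζ).le⟩

theorem coe_oneSubZeta {q : ℕ} (hq : q.Prime) (A : ValuationSubring Qb)
    (hA : A.LiesOverPrime q) {ζ : Qb} (hζ : IsPrimitiveRoot ζ q) :
    algebraMap (inertiaFieldZeta A ζ) Qb ((oneSubZeta hq A hA hζ : WZeta A ζ) :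
      inertiaFieldZeta A ζ) = 1 - ζ := rfl

/-- **`A ∩ K0(ζ_q)` is a discrete valuation ring.** -/
theorem isDiscreteValuationRing_WZeta {q : ℕ} (hq : q.Prime) (A : ValuationSubring Qb)
    (hA : A.LiesOverPrime q) {ζ : Qb} (hζ : IsPrimitiveRoot ζ q) :
    IsDiscreteValuationRing (WZeta A ζ) :=
  (isDiscreteValuationRing_comap_of_zpow A (inertiaFieldZeta A ζ)
    (one_sub_zeta_mem_inertiaFieldZeta A ζ) (one_sub_zeta_ne_zero hq hζ)
    (valuation_one_sub_zeta_lt_one A hq hA hζ)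
    (fun _ hx hx0 => exists_zpow_valuation_eq_of_mem_inertiaFieldZeta hq A hA hζ hx hx0)).1

/-- `1 - ζ` is a uniformiser of `A ∩ K0(ζ_q)`. -/
theorem irreducible_oneSubZeta {q : ℕ} (hq : q.Prime) (A : ValuationSubring Qb)
    (hA : A.LiesOverPrime q) {ζ : Qb} (hζ : IsPrimitiveRoot ζ q) :
    Irreducible (oneSubZeta hq A hA hζ) :=
  (isDiscreteValuationRing_comap_of_zpow A (inertiaFieldZeta A ζ)
    (one_sub_zeta_mem_inertiaFieldZeta A ζ) (one_sub_zeta_ne_zero hq hζ)
    (valuation_one_sub_zeta_lt_one A hq hA hζ)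
    (fun _ hx hx0 => exists_zpow_valuation_eq_of_mem_inertiaFieldZeta hq A hA hζ hx hx0)).2

/-- The maximal ideal of `A ∩ K0(ζ_q)` is generated by `1 - ζ`. -/
theorem maximalIdeal_WZeta {q : ℕ} (hq : q.Prime) (A : ValuationSubring Qb)
    (hA : A.LiesOverPrime q) {ζ : Qb} (hζ : IsPrimitiveRoot ζ q) :
    IsLocalRing.maximalIdeal (WZeta A ζ) = Ideal.span {oneSubZeta hq A hA hζ} := by
  haveI := isDiscreteValuationRing_WZeta hq A hA hζ
  exact (irreducible_oneSubZeta hq A hA hζ).maximalIdeal_eq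

/-- `K0(ζ)` has the residue field of `A`. -/
theorem exists_mem_inertiaFieldZeta_valuation_sub_lt_one {q : ℕ} (hq : q.Prime)
    (A : ValuationSubring Qb) (hA : A.LiesOverPrime q) (ζ : Qb) {a : Qb} (ha : a ∈ A) :
    ∃ w : Qb, w ∈ inertiaFieldZeta A ζ ∧ w ∈ A ∧ A.valuation (a - w) < 1 := by
  obtain ⟨w, hw, hwA, h⟩ := exists_mem_inertiaField_valuation_sub_lt_one hq A hA ha
  exact ⟨w, inertiaField_le_inertiaFieldZeta A ζ hw, hwA, h⟩

end Fermat.Agent.CAR.K0
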