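import Mathlib
import Fermat.Agent.CAR.V3.GaussDVR

/-!
# CAR / (Lf-5), abstract valuation half: coordinates of a Gauss-integral element

`A` a valuation subring of `L`, `π : A →+* k` killing the non-units.  `q, ϖ : L` with
`v(ϖ)^e = v(q) < 1`.  If series `y_i` (`i < e`) are each zero or `C (q ^ n) * (Gauss unit)` and
`Σ_{i<e} C (ϖ ^ i) * y_i` lies in the Gauss ring, then every `y_i` lies in the Gauss ring, and the
reduction of the sum is the reduction of `y_0`.

* `exps_nonneg` : a Gauss-integral finite sum of terms `C (ϖ ^ m_j) * (Gauss unit)` with pairwise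
  distinct exponents has all exponents `≥ 0`;
* `coords_mem` / `red_sum` : the statements with the explicit normal-form hypothesis;
* `coords_mem_of_fracRat` / `red_sum_of_fracRat` : for `y_i ∈ fracRat A L₀`, `IsUnifOn A L₀ q`.
-/

set_option autoImplicit false

noncomputable section

namespace Fermat.Agent.CAR.K0.GaussCoord

open HahnSeries ModularCurve Fermat.Agent.Lib.Red Fermat.Agent.CAR.V3.GaussDVR

variable {L : Type*} [Field L] {A : ValuationSubring L} {k : Type*} [Field k] (π : A →+* k)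

/-- a positive power of a non-unit constant has zero reduction -/
theorem red_C_pow_eq_zero (hπ : ∀ a : A, ¬ IsUnit a → π a = 0) {ϖ : L}
    (hϖ : A.valuation ϖ < 1) {d : ℕ} (hd : d ≠ 0)
    (h : (HahnSeries.C (ϖ ^ d) : LaurentSeries L) ∈ gaussRing A π) :
    red A π ⟨HahnSeries.C (ϖ ^ d), h⟩ = 0 := by
  have hϖA : ϖ ∈ A := (A.valuation_le_one_iff ϖ).mp hϖ.le
  have hmem : ϖ ^ d ∈ A := pow_mem hϖA d
  rw [red_C A π hmem h, hπ, map_zero]
  rw [A.valuation_eq_one_iff]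
  show A.valuation (ϖ ^ d) ≠ 1
  rw [map_pow]
  exact (pow_lt_one₀ zero_le hϖ hd).ne

/-- **Distinct valuations.**  If a finite sum of terms `C (ϖ ^ m_j) * u_j`, `u_j` Gauss units,
with pairwise distinct exponents `m_j`, lies in the Gauss ring, then all `m_j ≥ 0`. -/
theorem exps_nonneg {ι : Type*} [Fintype ι] (hπ : ∀ a : A, ¬ IsUnit a → π a = 0) {ϖ : L}
    (hϖ : A.valuation ϖ < 1) (hϖ0 : ϖ ≠ 0) (m : ι → ℤ) (u : ι → gaussRing A π)
    (hu : ∀ j, red A π (u j) ≠ 0) (hm : Function.Injective m)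
    (h : ∑ j, HahnSeries.C (ϖ ^ m j) * (u j : LaurentSeries L) ∈ gaussRing A π) (j : ι) :
    0 ≤ m j := by
  classical
  obtain ⟨j0, -, hmin⟩ := Finset.univ.exists_min_image m ⟨j, Finset.mem_univ j⟩
  have hmin' : ∀ j, m j0 ≤ m j := fun j => hmin j (Finset.mem_univ j)
  suffices 0 ≤ m j0 from this.trans (hmin' j)
  by_contra hneg
  push Not at hneg
  have hϖA : ϖ ∈ A := (A.valuation_le_one_iff ϖ).mp hϖ.le
  have hpow : ∀ j, ϖ ^ (m j - m j0) ∈ A := by
    intro j
    obtain ⟨d, hd⟩ := Int.eq_ofNat_of_zero_le (sub_nonneg.mpr (hmin' j))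
    rw [hd, zpow_natCast]
    exact pow_mem hϖA d
  let c : ι → gaussRing A π := fun j =>
    ⟨HahnSeries.C (ϖ ^ (m j - m j0)), C_mem_gaussRing A π (hpow j)⟩
  let U : gaussRing A π := ∑ j, c j * u j
  have hc0 : ∀ j, j ≠ j0 → red A π (c j) = 0 := by
    intro j hj
    have hlt : m j0 < m j := lt_of_le_of_ne (hmin' j) (fun h => hj (hm h.symm))
    obtain ⟨d, hd⟩ := Int.eq_ofNat_of_zero_le (sub_nonneg.mpr (hmin' j))
    have hd0 : d ≠ 0 := by
      rintro rfl
      simp at hd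
      omega
    have hmem : (HahnSeries.C (ϖ ^ d) : LaurentSeries L) ∈ gaussRing A π :=
      C_mem_gaussRing A π (pow_mem hϖA d)
    have hcj : c j = ⟨HahnSeries.C (ϖ ^ d), hmem⟩ := by
      apply Subtype.ext
      show HahnSeries.C (ϖ ^ (m j - m j0)) = HahnSeries.C (ϖ ^ d)
      rw [hd, zpow_natCast]
    rw [hcj]
    exact red_C_pow_eq_zero π hπ hϖ hd0 hmem
  have hcj0 : c j0 = 1 := by
    apply Subtype.ext
    show HahnSeries.C (ϖ ^ (m j0 - m j0)) = 1
    rw [sub_self, zpow_zero, map_one]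
  have hU : red A π U = red A π (u j0) := by
    show red A π (∑ j, c j * u j) = _
    rw [map_sum, Finset.sum_eq_single j0]
    · rw [map_mul, hcj0, map_one, one_mul]
    · intro j _ hj
      rw [map_mul, hc0 j hj, zero_mul]
    · intro h
      exact absurd (Finset.mem_univ _) h
  have hUne : red A π U ≠ 0 := by
    rw [hU]
    exact hu j0
  have hUinv : (U : LaurentSeries L)⁻¹ ∈ gaussRing A π := inv_mem_gaussRing A π U.2 hUne
  have hsum : ∑ j, HahnSeries.C (ϖ ^ m j) * (u j : LaurentSeries L)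
      = HahnSeries.C (ϖ ^ m j0) * (U : LaurentSeries L) := by
    show _ = _ * ((∑ j, c j * u j : gaussRing A π) : LaurentSeries L)
    rw [AddSubmonoidClass.coe_finsetSum, Finset.mul_sum]
    refine Finset.sum_congr rfl fun j _ => ?_
    show _ = HahnSeries.C (ϖ ^ m j0) * (HahnSeries.C (ϖ ^ (m j - m j0)) * (u j : LaurentSeries L))
    rw [← mul_assoc, ← map_mul, ← zpow_add₀ hϖ0]
    congr 3
    ring
  have hU0 : (U : LaurentSeries L) ≠ 0 := by
    intro h0
    apply hUne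
    have : U = 0 := Subtype.ext h0
    rw [this, map_zero]
  have hC : (HahnSeries.C (ϖ ^ m j0) : LaurentSeries L) ∈ gaussRing A π := by
    have := (gaussRing A π).mul_mem h hUinv
    rwa [hsum, mul_assoc, mul_inv_cancel₀ hU0, mul_one] at this
  obtain ⟨d, hd⟩ : ∃ d : ℕ, m j0 = -(d : ℤ) := ⟨(-m j0).toNat, by omega⟩
  have hd0 : d ≠ 0 := by
    rintro rfl
    simp at hd
    omega
  have hdA : ϖ ^ d ∈ A := pow_mem hϖA d
  have hCd := C_mem_gaussRing A π hdA
  have h1 : (⟨HahnSeries.C (ϖ ^ m j0), hC⟩ : gaussRing A π) * ⟨HahnSeries.C (ϖ ^ d), hCd⟩ = 1 := by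
    apply Subtype.ext
    show (HahnSeries.C (ϖ ^ m j0) : LaurentSeries L) * HahnSeries.C (ϖ ^ d) = 1
    rw [← map_mul, hd, zpow_neg, zpow_natCast, inv_mul_cancel₀ (pow_ne_zero d hϖ0), map_one]
  have h2 := congrArg (red A π) h1
  rw [map_mul, map_one, red_C_pow_eq_zero π hπ hϖ hd0 hCd, mul_zero] at h2
  exact zero_ne_one h2

/-- **Coordinates of a Gauss-integral element are Gauss-integral.** -/
theorem coords_mem (hπ : ∀ a : A, ¬ IsUnit a → π a = 0) {q ϖ : L} {e : ℕ}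
    (hq : A.valuation q < 1) (hq0 : q ≠ 0) (hϖ : A.valuation ϖ ^ e = A.valuation q)
    (y : ℕ → LaurentSeries L)
    (hy : ∀ i < e, y i ≠ 0 → ∃ (n : ℤ) (u : LaurentSeries L) (hu : u ∈ gaussRing A π),
        red A π ⟨u, hu⟩ ≠ 0 ∧ y i = HahnSeries.C (q ^ n) * u)
    (h : ∑ i ∈ Finset.range e, HahnSeries.C (ϖ ^ i) * y i ∈ gaussRing A π) :
    ∀ i < e, y i ∈ gaussRing A π := by
  classical
  intro i hi
  rcases eq_or_ne (y i) 0 with h0 | h0
  · rw [h0]
    exact zero_mem _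
  have he : e ≠ 0 := by
    rintro rfl
    exact absurd hi (Nat.not_lt_zero _)
  have hvq0 : A.valuation q ≠ 0 := (Valuation.ne_zero_iff _).mpr hq0
  have hqA : q ∈ A := (A.valuation_le_one_iff q).mp hq.le
  have hϖ0 : ϖ ≠ 0 := by
    rintro rfl
    rw [map_zero, zero_pow he] at hϖ
    exact hvq0 hϖ.symm
  have hϖ1 : A.valuation ϖ < 1 := by
    by_contra hcon
    push Not at hcon
    have h1 : 1 ≤ A.valuation ϖ ^ e := one_le_pow₀ hcon
    rw [hϖ] at h1
    exact absurd hq (not_lt.mpr h1)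
  -- the unit `w = q / ϖ^e`
  set w : L := q / ϖ ^ e with hw
  have hwv : A.valuation w = 1 := by
    rw [hw, map_div₀, map_pow, hϖ, div_self hvq0]
  have hqw : q = ϖ ^ e * w := by
    rw [hw]
    field_simp
  have hwn : ∀ z : ℤ, A.valuation (w ^ z) = 1 := by
    intro z
    rw [map_zpow₀, hwv, one_zpow]
  have hwnA : ∀ z : ℤ, w ^ z ∈ A := fun z => (A.valuation_le_one_iff _).mp (hwn z).le
  -- the index set
  let S : Finset ℕ := (Finset.range e).filter (fun i => y i ≠ 0)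
  have hS : ∀ j : S, (j : ℕ) < e ∧ y j ≠ 0 := by
    intro j
    have := j.2
    simp only [S, Finset.mem_filter, Finset.mem_range] at this
    exact this
  choose n u hu hred hyeq using fun j : S => hy j (hS j).1 (hS j).2
  let u' : S → gaussRing A π := fun j =>
    ⟨HahnSeries.C (w ^ n j), C_mem_gaussRing A π (hwnA (n j))⟩ * ⟨u j, hu j⟩
  have hu' : ∀ j, red A π (u' j) ≠ 0 := by
    intro j
    show red A π (⟨HahnSeries.C (w ^ n j), C_mem_gaussRing A π (hwnA (n j))⟩ * ⟨u j, hu j⟩) ≠ 0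
    rw [map_mul, red_C A π (hwnA (n j))]
    refine mul_ne_zero ?_ (hred j)
    intro h0
    have h1 : π ⟨w ^ n j, hwnA (n j)⟩ = 0 := by
      have := congrArg (fun f : LaurentSeries k => f.coeff 0) h0
      simpa using this
    have hunit : IsUnit (⟨w ^ n j, hwnA (n j)⟩ : A) := by
      rw [A.valuation_eq_one_iff]
      exact hwn (n j)
    exact (hunit.map π).ne_zero h1
  let m : S → ℤ := fun j => ((j : ℕ) : ℤ) + (e : ℤ) * n j
  have hm : Function.Injective m := by
    intro a b hab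
    have ha := (hS a).1
    have hb := (hS b).1
    have h1 : (((a : ℕ) : ℤ)) = ((b : ℕ) : ℤ) := by
      have h2 := congrArg (· % (e : ℤ)) hab
      simp only [m, Int.add_mul_emod_self_left] at h2
      rwa [Int.emod_eq_of_lt (by positivity) (by exact_mod_cast ha),
        Int.emod_eq_of_lt (by positivity) (by exact_mod_cast hb)] at h2
    exact Subtype.ext (by exact_mod_cast h1)
  have hsum : ∑ j : S, HahnSeries.C (ϖ ^ m j) * (u' j : LaurentSeries L)
      = ∑ i ∈ Finset.range e, HahnSeries.C (ϖ ^ i) * y i := by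
    calc ∑ j : S, HahnSeries.C (ϖ ^ m j) * (u' j : LaurentSeries L)
        = ∑ j : S, HahnSeries.C (ϖ ^ (j : ℕ)) * y j := by
          refine Finset.sum_congr rfl fun j _ => ?_
          rw [hyeq j]
          show HahnSeries.C (ϖ ^ (((j : ℕ) : ℤ) + (e : ℤ) * n j))
              * (HahnSeries.C (w ^ n j) * u j)
            = HahnSeries.C (ϖ ^ (j : ℕ)) * (HahnSeries.C (q ^ n j) * u j)
          rw [← mul_assoc, ← mul_assoc, ← map_mul, ← map_mul]
          congr 2
          rw [hqw, mul_zpow, zpow_add₀ hϖ0, zpow_natCast, zpow_mul, zpow_natCast, mul_assoc]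
      _ = ∑ i ∈ S, HahnSeries.C (ϖ ^ i) * y i :=
          Finset.sum_coe_sort S (fun i => HahnSeries.C (ϖ ^ i) * y i)
      _ = ∑ i ∈ Finset.range e, HahnSeries.C (ϖ ^ i) * y i := by
          refine Finset.sum_filter_of_ne fun i _ hne h0 => hne ?_
          rw [h0, mul_zero]
  have hnn := exps_nonneg π hπ hϖ1 hϖ0 m u' hu' hm (by rw [hsum]; exact h)
  have hiS : i ∈ S := by
    simp only [S, Finset.mem_filter, Finset.mem_range]
    exact ⟨hi, h0⟩
  have h3 := hnn ⟨i, hiS⟩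
  have hn0 : 0 ≤ n ⟨i, hiS⟩ := by
    by_contra hneg
    push Not at hneg
    have h4 : (e : ℤ) * n ⟨i, hiS⟩ ≤ -(e : ℤ) := by nlinarith
    have h5 : (i : ℤ) < e := by exact_mod_cast hi
    simp only [m] at h3
    omega
  have h6 := hyeq ⟨i, hiS⟩
  simp only at h6
  rw [h6]
  obtain ⟨d, hd⟩ := Int.eq_ofNat_of_zero_le hn0
  rw [hd, zpow_natCast]
  exact mul_mem (C_mem_gaussRing A π (pow_mem hqA d)) (hu _)

/-- **The reduction of the sum is the reduction of the `0`-th coordinate.** -/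
theorem red_sum (hπ : ∀ a : A, ¬ IsUnit a → π a = 0) {ϖ : L} {e : ℕ}
    (hϖ : A.valuation ϖ < 1) (y : ℕ → LaurentSeries L)
    (hy : ∀ i < e, y i ∈ gaussRing A π) (he : 0 < e)
    (h : ∑ i ∈ Finset.range e, HahnSeries.C (ϖ ^ i) * y i ∈ gaussRing A π) :
    red A π ⟨_, h⟩ = red A π ⟨y 0, hy 0 he⟩ := by
  classical
  have hϖA : ϖ ∈ A := (A.valuation_le_one_iff ϖ).mp hϖ.le
  let T : ℕ → gaussRing A π := fun i =>
    if hi : i < e then
      ⟨HahnSeries.C (ϖ ^ i), C_mem_gaussRing A π (pow_mem hϖA i)⟩ * ⟨y i, hy i hi⟩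
    else 0
  have hT : (⟨∑ i ∈ Finset.range e, HahnSeries.C (ϖ ^ i) * y i, h⟩ : gaussRing A π)
      = ∑ i ∈ Finset.range e, T i := by
    apply Subtype.ext
    show ∑ i ∈ Finset.range e, HahnSeries.C (ϖ ^ i) * y i
      = ((∑ i ∈ Finset.range e, T i : gaussRing A π) : LaurentSeries L)
    rw [AddSubmonoidClass.coe_finsetSum]
    refine Finset.sum_congr (M := LaurentSeries L) rfl fun i hi => ?_
    have hi' := Finset.mem_range.mp hi
    have h2 : T i = ⟨HahnSeries.C (ϖ ^ i), C_mem_gaussRing A π (pow_mem hϖA i)⟩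
        * ⟨y i, hy i hi'⟩ := dif_pos hi'
    rw [h2]
    rfl
  rw [hT, map_sum, Finset.sum_eq_single 0]
  · have h2 : T 0 = ⟨HahnSeries.C (ϖ ^ 0), C_mem_gaussRing A π (pow_mem hϖA 0)⟩
        * ⟨y 0, hy 0 he⟩ := dif_pos he
    rw [h2, map_mul]
    have h1 : (⟨HahnSeries.C (ϖ ^ 0), C_mem_gaussRing A π (pow_mem hϖA 0)⟩ : gaussRing A π)
        = 1 := Subtype.ext (by simp)
    rw [h1, map_one, one_mul]
  · intro i hi hi0
    have hi' := Finset.mem_range.mp hi
    have h2 : T i = ⟨HahnSeries.C (ϖ ^ i), C_mem_gaussRing A π (pow_mem hϖA i)⟩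
        * ⟨y i, hy i hi'⟩ := dif_pos hi'
    rw [h2, map_mul, red_C_pow_eq_zero π hπ hϖ hi0, zero_mul]
  · intro h0
    exact absurd (Finset.mem_range.mpr he) h0

/-- `v(ϖ)^e = v(q) < 1` forces `v(ϖ) < 1`. -/
theorem val_lt_one_of_pow {q ϖ : L} {e : ℕ} (hq : A.valuation q < 1)
    (hϖ : A.valuation ϖ ^ e = A.valuation q) : A.valuation ϖ < 1 := by
  by_contra hcon
  push Not at hcon
  have h1 : 1 ≤ A.valuation ϖ ^ e := one_le_pow₀ hcon
  rw [hϖ] at h1
  exact absurd hq (not_lt.mpr h1)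

/-- The form over a subfield `L₀` on which `A` is discrete with uniformiser `q`. -/
theorem coords_mem_of_fracRat (hπ : ∀ a : A, ¬ IsUnit a → π a = 0) {L₀ : Subfield L} {q ϖ : L}
    {e : ℕ} (hq : IsUnifOn A L₀ q) (hϖ : A.valuation ϖ ^ e = A.valuation q)
    (y : ℕ → LaurentSeries L) (hy : ∀ i < e, y i ∈ fracRat A L₀)
    (h : ∑ i ∈ Finset.range e, HahnSeries.C (ϖ ^ i) * y i ∈ gaussRing A π) :
    ∀ i < e, y i ∈ gaussRing A π :=
  coords_mem π hπ hq.lt_one hq.ne_zero hϖ y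
    (fun i hi h0 => hq.exists_zpow_mul_unit π (hy i hi) h0) h

/-- The reduction statement in the same setting. -/
theorem red_sum_of_fracRat (hπ : ∀ a : A, ¬ IsUnit a → π a = 0) {L₀ : Subfield L} {q ϖ : L}
    {e : ℕ} (hq : IsUnifOn A L₀ q) (hϖ : A.valuation ϖ ^ e = A.valuation q)
    (y : ℕ → LaurentSeries L) (hy : ∀ i < e, y i ∈ fracRat A L₀) (he : 0 < e)
    (h : ∑ i ∈ Finset.range e, HahnSeries.C (ϖ ^ i) * y i ∈ gaussRing A π) :
    ∃ h0 : y 0 ∈ gaussRing A π, red A π ⟨_, h⟩ = red A π ⟨y 0, h0⟩ :=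
  ⟨coords_mem_of_fracRat π hπ hq hϖ y hy h 0 he,
    red_sum π hπ (val_lt_one_of_pow hq.lt_one hϖ) y
      (coords_mem_of_fracRat π hπ hq hϖ y hy h) he h⟩

end Fermat.Agent.CAR.K0.GaussCoord
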