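import Mathlib
import Fermat.Agent.CAR.K0.GaussCoord
import Fermat.Agent.Lib.Red.Ow

/-!
# CAR / (Lf-5): the coordinate lemma of `GaussCoord` in the `Ow` / `redF` vocabulary

For `F' = L·F_N`, its Gauss valuation ring `Ow A π N hNk` and residue map `redF`:
if `y_i ∈ F'` (`i < e`) have their series in `fracRat A L₀` (`A` discrete on `L₀` with
uniformiser `q`), `v(ϖ)^e = v(q)`, and `Σ_{i<e} ϖ^i • y_i ∈ Ow`, then every `y_i ∈ Ow` and
`redF (Σ …) = redF (y_0)`.
-/

set_option autoImplicit false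

noncomputable section

namespace Fermat.Agent.CAR.K0.GaussCoord

open HahnSeries ModularCurve Fermat.Agent.Lib.Red Fermat.Agent.CAR.V3.GaussDVR
  Fermat.Agent.S28

variable {L : Type*} [Field L] [Algebra ℚ L] {A : ValuationSubring L} {k : Type} [Field k]
  {π : A →+* k} {N : ℕ} [NeZero N]

omit [NeZero N] in
/-- the series of a coordinate sum -/
theorem coe_sum_algebraMap_mul (ϖ : L) (e : ℕ)
    (y : ℕ → ↥(laurentBaseChange L (modularFunctionFieldFull N))) :
    ((∑ i ∈ Finset.range e,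
        algebraMap L ↥(laurentBaseChange L (modularFunctionFieldFull N)) (ϖ ^ i) * y i :
        ↥(laurentBaseChange L (modularFunctionFieldFull N))) : LaurentSeries L)
      = ∑ i ∈ Finset.range e, HahnSeries.C (ϖ ^ i) * ((y i : ↥(laurentBaseChange L
          (modularFunctionFieldFull N))) : LaurentSeries L) := by
  rw [AddSubmonoidClass.coe_finsetSum]
  refine Finset.sum_congr rfl fun i _ => ?_
  rw [Fermat.Agent.Lib.Red.C_eq_algebraMap]
  rfl

/-- **Coordinates of a Gauss-integral function are Gauss-integral** (`Ow` form). -/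
theorem coords_mem_Ow (hπ : ∀ a : A, ¬ IsUnit a → π a = 0) (hNk : (N : k) ≠ 0)
    {L₀ : Subfield L} {q ϖ : L} {e : ℕ} (hq : IsUnifOn A L₀ q)
    (hϖ : A.valuation ϖ ^ e = A.valuation q)
    (y : ℕ → ↥(laurentBaseChange L (modularFunctionFieldFull N)))
    (hy : ∀ i < e, ((y i : ↥(laurentBaseChange L (modularFunctionFieldFull N))) :
      LaurentSeries L) ∈ fracRat A L₀)
    (h : ∑ i ∈ Finset.range e,
      algebraMap L ↥(laurentBaseChange L (modularFunctionFieldFull N)) (ϖ ^ i) * y i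
        ∈ Ow A π N hNk) :
    ∀ i < e, y i ∈ Ow A π N hNk := by
  have h' : ∑ i ∈ Finset.range e, HahnSeries.C (ϖ ^ i) * ((y i : ↥(laurentBaseChange L
      (modularFunctionFieldFull N))) : LaurentSeries L) ∈ gaussRing A π := by
    rw [← coe_sum_algebraMap_mul]
    exact h
  exact coords_mem_of_fracRat π hπ hq hϖ (fun i => ((y i : ↥(laurentBaseChange L
      (modularFunctionFieldFull N))) : LaurentSeries L)) hy h'

/-- **`redF (Σ_{i<e} ϖ^i y_i) = redF (y_0)`** (`Ow` form). -/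
theorem redF_sum_Ow (hπ : ∀ a : A, ¬ IsUnit a → π a = 0) (hNk : (N : k) ≠ 0)
    {L₀ : Subfield L} {q ϖ : L} {e : ℕ} (hq : IsUnifOn A L₀ q)
    (hϖ : A.valuation ϖ ^ e = A.valuation q)
    (y : ℕ → ↥(laurentBaseChange L (modularFunctionFieldFull N)))
    (hy : ∀ i < e, ((y i : ↥(laurentBaseChange L (modularFunctionFieldFull N))) :
      LaurentSeries L) ∈ fracRat A L₀) (he : 0 < e)
    (h : ∑ i ∈ Finset.range e,
      algebraMap L ↥(laurentBaseChange L (modularFunctionFieldFull N)) (ϖ ^ i) * y i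
        ∈ Ow A π N hNk) :
    ∃ h0 : y 0 ∈ Ow A π N hNk,
      redF A π N hπ hNk ⟨_, h⟩ = redF A π N hπ hNk ⟨y 0, h0⟩ := by
  have h' : ∑ i ∈ Finset.range e, HahnSeries.C (ϖ ^ i) * ((y i : ↥(laurentBaseChange L
      (modularFunctionFieldFull N))) : LaurentSeries L) ∈ gaussRing A π := by
    rw [← coe_sum_algebraMap_mul]
    exact h
  obtain ⟨h0, hred⟩ := red_sum_of_fracRat π hπ hq hϖ (fun i => ((y i : ↥(laurentBaseChange L
      (modularFunctionFieldFull N))) : LaurentSeries L)) hy he h'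
  refine ⟨h0, Subtype.ext ?_⟩
  rw [coe_redF, coe_redF]
  have e1 : OwToGauss A π N hNk ⟨_, h⟩ = ⟨_, h'⟩ :=
    Subtype.ext (coe_sum_algebraMap_mul ϖ e y)
  have e2 : OwToGauss A π N hNk ⟨y 0, h0⟩ = ⟨((y 0 : ↥(laurentBaseChange L
      (modularFunctionFieldFull N))) : LaurentSeries L), h0⟩ := rfl
  rw [e1, e2]
  exact hred

end Fermat.Agent.CAR.K0.GaussCoord
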