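/-
CAR (K0), complements to `CAR/K0.lean` (nothing here overlaps `K0/Basic`, `K0/Gal`, `K0.lean`):

* `henselianLocalRing_W0 A : HenselianLocalRing (W0 A)`  (`W0 = A ∩ K0` is a henselian DVR);
* `ker_resW0 hq hA : RingHom.ker (resW0 A) = Ideal.span {(q : W0 A)}`;
* `conj_mem_inertiaSubgroupIn`, `apply_mem_K0_of_mem_decomp` : the inertia group is normalised by
  the decomposition group, so `K0` is stable under `D_A`.
-/
import Mathlib
import Fermat.Agent.CAR.K0
import Fermat.Agent.PT.G.KumHens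

set_option autoImplicit false

namespace Fermat.Agent.CAR.K0

open IsLocalRing

local notation "Qb" => AlgebraicClosure ℚ
local notation "GQ" => (AlgebraicClosure ℚ ≃ₐ[ℚ] AlgebraicClosure ℚ)

theorem inertiaSubgroupIn_le_decomp (A : ValuationSubring Qb) :
    A.inertiaSubgroupIn ℚ ≤ A.decompositionSubgroup ℚ := by
  rintro σ ⟨τ, -, rfl⟩
  exact τ.2

/-- Conjugation by the decomposition group preserves the inertia group. -/
theorem conj_mem_inertiaSubgroupIn (A : ValuationSubring Qb) {σ τ : GQ}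
    (hσ : σ ∈ A.decompositionSubgroup ℚ) (hτ : τ ∈ A.inertiaSubgroupIn ℚ) :
    σ⁻¹ * τ * σ ∈ A.inertiaSubgroupIn ℚ := by
  obtain ⟨τ', hτ', rfl⟩ := hτ
  have hnorm : (A.inertiaSubgroup ℚ).Normal := by
    unfold ValuationSubring.inertiaSubgroup
    exact MonoidHom.normal_ker _
  have h1 := hnorm.conj_mem τ' hτ' (⟨σ, hσ⟩ : A.decompositionSubgroup ℚ)⁻¹
  rw [inv_inv] at h1
  exact ⟨_, h1, rfl⟩

/-- The inertia field is stable under the decomposition group. -/
theorem apply_mem_K0_of_mem_decomp (A : ValuationSubring Qb) {σ : GQ}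
    (hσ : σ ∈ A.decompositionSubgroup ℚ) {x : Qb} (hx : x ∈ K0 A) : σ x ∈ K0 A := by
  rw [mem_K0_iff] at hx ⊢
  intro τ hτ
  have h1 := hx _ (conj_mem_inertiaSubgroupIn A hσ hτ)
  have h2 : σ ((σ⁻¹ * τ * σ) x) = τ (σ x) := by
    show σ (σ⁻¹ (τ (σ x))) = τ (σ x)
    exact σ.apply_symm_apply _
  rw [← h2, h1]

/-- **`W0 = A ∩ K0` is henselian.** -/
theorem henselianLocalRing_W0 (A : ValuationSubring Qb) : HenselianLocalRing (W0 A) :=
  Fermat.Agent.PT.Kummer.henselianLocalRing_fixedField (K := ℚ) A (A.inertiaSubgroupIn ℚ)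
    (inertiaSubgroupIn_le_decomp A)

/-- The kernel of `W0 → A/𝔪_A` is generated by `q`. -/
theorem ker_resW0 {q : ℕ} (hq : q.Prime) {A : ValuationSubring Qb} (hA : A.LiesOverPrime q) :
    RingHom.ker (resW0 A) = Ideal.span {((q : ℕ) : W0 A)} := by
  rw [← maximalIdeal_W hq A hA]
  ext x
  rw [RingHom.mem_ker, resW0_eq_zero_iff, mem_maximalIdeal, mem_nonunits_iff]

end Fermat.Agent.CAR.K0
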