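/-
CAR / K0: a residue-compatible trace functional.

ABSTRACT.  `R` a discrete valuation ring with fraction field `K`, `L/K` finite separable,
`V` a valuation subring of `L` which is the integral closure of `R` in `L` and has the residue
field of `R`.  Then there is `c ∈ L` such that `a ↦ Tr_{L/K}(c a)` maps `V` into `R` and is the
identity modulo the maximal ideal of `V` (`exists_trace_residue`).

Proof: the integral closure is a finite free `R`-module; lift the residues of a basis to `R`;
the resulting `R`-linear retraction `V → R` is `Tr(c ·)` by the trace-dual basis.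

INSTANCE.  `K0 = ℚ̄^I` the inertia field of a valuation subring `A` of `ℚ̄` over `q`,
`W = A ∩ K0`, `K1/K0` finite inside `ℚ̄`: `exists_trace_residue_K0`.
-/
import Mathlib
import Fermat.Agent.CAR.K0

set_option autoImplicit false
set_option linter.style.haveILetI false
set_option linter.unusedSectionVars false

open scoped nonZeroDivisors

namespace Fermat.Agent.CAR.K0.TraceRes

/-! ### Abstract form -/

section Abstract

variable {R K L : Type*} [CommRing R] [IsDomain R] [IsDiscreteValuationRing R] [Field K]
  [Field L] [Algebra R K] [IsFractionRing R K] [Algebra K L] [Algebra R L] [IsScalarTower R K L]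

omit [IsDomain R] [IsDiscreteValuationRing R] [Algebra R K] [IsFractionRing R K] [Algebra K L]
  [IsScalarTower R K L] in
/-- An element integral over a subring of a valuation subring lies in the valuation subring. -/
theorem mem_of_isIntegral (V : ValuationSubring L) (hRV : ∀ r : R, algebraMap R L r ∈ V) {x : L}
    (hx : IsIntegral R x) : x ∈ V := by
  obtain ⟨p, hp, hpx⟩ := hx
  let φ : R →+* V.valuation.integer := (algebraMap R L).codRestrict V.valuation.integer
    (fun r => by rw [V.integer_valuation]; exact hRV r)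
  have h1 : IsIntegral V.valuation.integer x := by
    refine ⟨p.map φ, hp.map φ, ?_⟩
    rw [Polynomial.eval₂_map]
    exact hpx
  have h := (Valuation.integer.integers V.valuation).mem_of_integral (x := x) h1
  rw [V.integer_valuation] at h
  exact h

variable [FiniteDimensional K L] [Algebra.IsSeparable K L]

/-- **Residue-compatible trace functional.** -/
theorem exists_trace_residue (V : ValuationSubring L) (hRV : ∀ r : R, algebraMap R L r ∈ V)
    (hint : ∀ a ∈ V, IsIntegral R a)
    (hres : ∀ a ∈ V, ∃ r : R, a - algebraMap R L r ∈ V.nonunits) :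
    ∃ c : L, ∀ a ∈ V, ∃ r : R, Algebra.trace K L (c * a) = algebraMap R K r ∧
      algebraMap R L r - a ∈ V.nonunits := by
  classical
  haveI : Module.IsTorsionFree R L := .trans_faithfulSMul R K L
  haveI : Module.Free R (integralClosure R L) :=
    IsIntegralClosure.module_free R K L (integralClosure R L)
  haveI : Module.Finite R (integralClosure R L) :=
    IsIntegralClosure.finite R K L (integralClosure R L)
  haveI : IsLocalization (Algebra.algebraMapSubmonoid (integralClosure R L) R⁰) L :=
    IsIntegralClosure.isLocalization R K L (integralClosure R L)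
  let b := Module.Free.chooseBasis R (integralClosure R L)
  let bK : Module.Basis (Module.Free.ChooseBasisIndex R (integralClosure R L)) K L :=
    b.localizationLocalization K R⁰ L
  have hbK : ∀ i, bK i = ((b i : integralClosure R L) : L) :=
    fun i => b.localizationLocalization_apply K R⁰ L i
  let d := (Algebra.traceForm K L).dualBasis (traceForm_nondegenerate K L) bK
  have hd : ∀ i j, Algebra.trace K L (d i * bK j) = if j = i then 1 else 0 :=
    fun i j => LinearMap.BilinForm.apply_dualBasis_left (traceForm_nondegenerate K L) bK i j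
  have hbV : ∀ i, ((b i : integralClosure R L) : L) ∈ V :=
    fun i => mem_of_isIntegral V hRV (b i).2
  choose w hw using fun i => hres _ (hbV i)
  refine ⟨∑ i, algebraMap R L (w i) * d i, fun a ha => ?_⟩
  let a' : integralClosure R L := ⟨a, hint a ha⟩
  have hexp : a = ∑ j, algebraMap R L (b.repr a' j) * bK j := by
    have h1 : ((∑ j, b.repr a' j • b j : integralClosure R L) : L) = a :=
      congrArg (fun z : integralClosure R L => (z : L)) (b.sum_repr a')
    rw [← h1, AddSubmonoidClass.coe_finsetSum]
    refine Finset.sum_congr rfl fun j _ => ?_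
    rw [hbK j, Algebra.smul_def]
    rfl
  refine ⟨∑ i, b.repr a' i * w i, ?_, ?_⟩
  · have key : ∀ i j, Algebra.trace K L
        (algebraMap R L (w i) * d i * (algebraMap R L (b.repr a' j) * bK j))
        = algebraMap R K (b.repr a' j * w i) * (if j = i then 1 else 0) := by
      intro i j
      have h2 : algebraMap R L (w i) * d i * (algebraMap R L (b.repr a' j) * bK j)
          = algebraMap R K (b.repr a' j * w i) • (d i * bK j) := by
        rw [Algebra.smul_def, ← IsScalarTower.algebraMap_apply, map_mul]
        ring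
      rw [h2, map_smul, smul_eq_mul, hd]
    conv_lhs => rw [hexp]
    rw [Finset.sum_mul, map_sum, map_sum]
    refine Finset.sum_congr rfl fun i _ => ?_
    rw [Finset.mul_sum, map_sum]
    simp_rw [key]
    rw [Finset.sum_eq_single i]
    · rw [if_pos rfl, mul_one]
    · intro j _ hji
      rw [if_neg hji, mul_zero]
    · intro h
      exact absurd (Finset.mem_univ i) h
  · have h3 : algebraMap R L (∑ i, b.repr a' i * w i) - a
        = ∑ i, algebraMap R L (b.repr a' i)
            * (algebraMap R L (w i) - ((b i : integralClosure R L) : L)) := by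
      conv_lhs => rw [hexp]
      rw [map_sum, ← Finset.sum_sub_distrib]
      refine Finset.sum_congr rfl fun i _ => ?_
      rw [hbK i, map_mul]
      ring
    rw [h3, ValuationSubring.mem_nonunits_iff]
    refine Valuation.map_sum_lt _ one_ne_zero fun i _ => ?_
    rw [← ValuationSubring.mem_nonunits_iff, mul_comm]
    refine Fermat.Agent.Lib.ValuationIntegral.mul_mem_nonunits V ?_ (hRV _)
    have h4 := hw i
    rw [ValuationSubring.mem_nonunits_iff] at h4 ⊢
    rwa [Valuation.map_sub_swap]

end Abstract

/-! ### The inertia field -/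

section Inst

local notation "Qb" => AlgebraicClosure ℚ

/-- A nonzero element is a non-unit iff its inverse is not in the valuation subring. -/
theorem mem_nonunits_iff_inv_notMem {M : Type*} [Field M] (B : ValuationSubring M) {y : M}
    (hy : y ≠ 0) : y ∈ B.nonunits ↔ y⁻¹ ∉ B := by
  rw [ValuationSubring.mem_nonunits_iff, ← ValuationSubring.valuation_le_one_iff, map_inv₀,
    not_le, one_lt_inv₀ ((Valuation.pos_iff _).mpr hy)]

/-- Non-units of a comap. -/
theorem mem_nonunits_comap_iff {K L : Type*} [Field K] [Field L] (A : ValuationSubring L)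
    (f : K →+* L) (x : K) : x ∈ (A.comap f).nonunits ↔ f x ∈ A.nonunits := by
  rcases eq_or_ne x 0 with rfl | hx
  · rw [ValuationSubring.mem_nonunits_iff, ValuationSubring.mem_nonunits_iff, map_zero, map_zero,
      map_zero]
    exact ⟨fun _ => zero_lt_one, fun _ => zero_lt_one⟩
  · have hfx : f x ≠ 0 := (map_ne_zero f).mpr hx
    rw [mem_nonunits_iff_inv_notMem _ hx, mem_nonunits_iff_inv_notMem _ hfx,
      ValuationSubring.mem_comap, map_inv₀]

variable (A : ValuationSubring Qb)

/-- The inertia field is fixed by ... : every `K0`-automorphism of `ℚ̄` preserves `A`. -/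
theorem apply_mem_of_algEquiv (σ : Qb ≃ₐ[↥(inertiaField A)] Qb) {a : Qb} (ha : a ∈ A) :
    σ a ∈ A := by
  have h1 : σ.restrictScalars ℚ ∈ A.inertiaSubgroupIn ℚ := restrictScalars_mem_inertia A σ
  have h2 : σ.restrictScalars ℚ ∈ A.decompositionSubgroup ℚ := by
    obtain ⟨τ, -, hτ⟩ := h1
    rw [← hτ]
    exact τ.2
  exact (Fermat.Agent.PT.G.apply_mem_iff_of_mem_decomp h2 a).mpr ha

/-- The minimal polynomial over `K0` of an element of `A` has its coefficients in `A`. -/
theorem coeff_minpoly_mem {a : Qb} (ha : a ∈ A) (n : ℕ) :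
    (((minpoly ↥(inertiaField A) a).coeff n : ↥(inertiaField A)) : Qb) ∈ A := by
  haveI : Algebra.IsAlgebraic ↥(inertiaField A) Qb := isAlgebraic_K0 A
  haveI : Normal ↥(inertiaField A) Qb := normal_K0 A
  have hsplit : ((minpoly ↥(inertiaField A) a).map (algebraMap ↥(inertiaField A) Qb)).Splits :=
    IsAlgClosed.splits _
  have hmonic : ((minpoly ↥(inertiaField A) a).map (algebraMap ↥(inertiaField A) Qb)).Monic :=
    (minpoly.monic (Algebra.IsIntegral.isIntegral a)).map _
  have hprod := hsplit.eq_prod_roots_of_monic hmonic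
  have hmem : (minpoly ↥(inertiaField A) a).map (algebraMap ↥(inertiaField A) Qb)
      ∈ Polynomial.liftsRing A.subtype := by
    rw [hprod]
    refine Subring.multiset_prod_mem _ _ (fun p hp => ?_)
    obtain ⟨r, hr, rfl⟩ := Multiset.mem_map.mp hp
    have hr' : Polynomial.aeval r (minpoly ↥(inertiaField A) a) = 0 := by
      have h1 := (Polynomial.mem_roots hmonic.ne_zero).mp hr
      rwa [Polynomial.IsRoot.def, Polynomial.eval_map, ← Polynomial.aeval_def] at h1
    obtain ⟨σ, hσ⟩ := minpoly.exists_algEquiv_of_root' (Algebra.IsAlgebraic.isAlgebraic a) hr'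
    have hrA : r ∈ A := hσ ▸ apply_mem_of_algEquiv A σ ha
    refine Subring.sub_mem _ ((Polynomial.lifts_iff_liftsRing _ _).mp (Polynomial.X_mem_lifts _))
      ((Polynomial.lifts_iff_liftsRing _ _).mp ?_)
    exact Polynomial.C_mem_lifts A.subtype ⟨r, hrA⟩
  obtain ⟨x, hx⟩ := (Polynomial.lifts_iff_coeff_lifts _).mp
    ((Polynomial.lifts_iff_liftsRing _ _).mpr hmem) n
  rw [Polynomial.coeff_map] at hx
  have hx' : (((minpoly ↥(inertiaField A) a).coeff n : ↥(inertiaField A)) : Qb) = (x : Qb) :=
    hx.symm
  rw [hx']
  exact x.2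

variable {q : ℕ}

/-- **The residue-compatible trace functional over the inertia field.**  For a finite extension
`K1` of `K0 = ℚ̄^I` inside `ℚ̄` there is `c ∈ K1` such that for every `a ∈ A ∩ K1` the element
`Tr_{K1/K0}(c a)` lies in `A` and is congruent to `a` modulo the maximal ideal of `A`. -/
theorem exists_trace_residue_K0 (hq : q.Prime) (hA : A.LiesOverPrime q)
    (K1 : IntermediateField ↥(inertiaField A) Qb) [FiniteDimensional ↥(inertiaField A) ↥K1] :
    ∃ c : ↥K1, ∀ a : ↥K1, (a : Qb) ∈ A →
      ((Algebra.trace ↥(inertiaField A) ↥K1 (c * a) : ↥(inertiaField A)) : Qb) ∈ A ∧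
      A.valuation (((Algebra.trace ↥(inertiaField A) ↥K1 (c * a) : ↥(inertiaField A)) : Qb)
        - (a : Qb)) < 1 := by
  haveI := isDiscreteValuationRing_W hq A hA
  letI : Algebra ↥(W A) ↥K1 :=
    ((algebraMap ↥(inertiaField A) ↥K1).comp (algebraMap ↥(W A) ↥(inertiaField A))).toAlgebra
  haveI : IsScalarTower ↥(W A) ↥(inertiaField A) ↥K1 :=
    IsScalarTower.of_algebraMap_eq (fun _ => rfl)
  let V : ValuationSubring ↥K1 := A.comap (algebraMap ↥K1 Qb)
  have hRV : ∀ r : W A, algebraMap ↥(W A) ↥K1 r ∈ V := fun r => r.2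
  have hint : ∀ a ∈ V, IsIntegral ↥(W A) a := by
    intro a ha
    have ha' : (a : Qb) ∈ A := ha
    have hmin : minpoly ↥(inertiaField A) (a : Qb) = minpoly ↥(inertiaField A) a :=
      minpoly.algebraMap_eq (algebraMap ↥K1 Qb).injective a
    have hlifts : minpoly ↥(inertiaField A) a
        ∈ Polynomial.lifts (algebraMap ↥(W A) ↥(inertiaField A)) := by
      rw [Polynomial.lifts_iff_coeff_lifts]
      intro n
      refine ⟨⟨(minpoly ↥(inertiaField A) a).coeff n, ?_⟩, rfl⟩
      rw [← hmin]
      exact coeff_minpoly_mem A ha' n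
    haveI : Algebra.IsAlgebraic ↥(inertiaField A) ↥K1 := Algebra.IsAlgebraic.of_finite _ _
    obtain ⟨p, hp, -, hpm⟩ := Polynomial.lifts_and_degree_eq_and_monic hlifts
      (minpoly.monic (Algebra.IsIntegral.isIntegral a))
    refine ⟨p, hpm, ?_⟩
    have h1 : Polynomial.eval₂ (algebraMap ↥(W A) ↥K1) a p
        = Polynomial.eval₂ (algebraMap ↥(inertiaField A) ↥K1) a
            (p.map (algebraMap ↥(W A) ↥(inertiaField A))) := by
      rw [Polynomial.eval₂_map]
      rfl
    rw [h1, hp, ← Polynomial.aeval_def, minpoly.aeval]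
  have hres : ∀ a ∈ V, ∃ r : W A, a - algebraMap ↥(W A) ↥K1 r ∈ V.nonunits := by
    intro a ha
    obtain ⟨w, hw⟩ := exists_W_valuation_sub_lt_one hq A hA ⟨(a : Qb), ha⟩
    refine ⟨w, ?_⟩
    rw [mem_nonunits_comap_iff, ValuationSubring.mem_nonunits_iff, map_sub]
    exact hw
  obtain ⟨c, hc⟩ := exists_trace_residue (K := ↥(inertiaField A)) V hRV hint hres
  refine ⟨c, fun a ha => ?_⟩
  obtain ⟨r, hr1, hr2⟩ := hc a ha
  rw [hr1]
  refine ⟨r.2, ?_⟩
  rw [mem_nonunits_comap_iff, ValuationSubring.mem_nonunits_iff, map_sub] at hr2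
  exact hr2

end Inst

end Fermat.Agent.CAR.K0.TraceRes
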